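import Mathlib
import Fermat.Prelude.Def_FLTPrelim_Ramification
import Fermat.Agent.Lib.Frobenius
import Fermat.Agent.S13.MinkowskiLift

/-!
# S14, module G, task G-5a: lifting to the decomposition subgroup
-/

set_option autoImplicit false
set_option linter.style.haveILetI false

namespace Fermat.Agent.S14.G

open scoped Pointwise
open Fermat.Agent.Lib.Frobenius Fermat.Agent.S13.Minkowski

local notation "Qbar" => AlgebraicClosure ℚ
local notation "GQ" => (AlgebraicClosure ℚ ≃ₐ[ℚ] AlgebraicClosure ℚ)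

attribute [local instance] zbarAction

/-- An automorphism preserving the prime of the algebraic integers cut out by `A` lies in the
decomposition subgroup of `A`. -/
theorem mem_decompositionSubgroup_of_smul_primeOf (A : ValuationSubring Qbar) (δ : GQ)
    (hδ : δ • primeOf A = primeOf A) : δ ∈ A.decompositionSubgroup ℚ := by
  classical
  set v := A.valuation with hv
  have hfrac := exists_integral_fraction A
  have hle : ∀ x, IsIntegral ℤ x → v x ≤ 1 := fun x hx =>
    (A.valuation_le_one_iff x).2 (mem_of_isIntegral_int A hx)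
  have hint : ∀ (τ : GQ) x, IsIntegral ℤ x → IsIntegral ℤ (τ x) := fun τ x hx =>
    hx.map (τ : Qbar →ₐ[ℚ] Qbar).toRingHom.toIntAlgHom
  have one_of : ∀ b, IsIntegral ℤ b → b ∉ A.nonunits → v b = 1 := by
    intro b hb hbn
    rw [A.mem_nonunits_iff, not_lt] at hbn
    exact le_antisymm (hle b hb) hbn
  -- general statement for an automorphism preserving the prime
  have gen : ∀ τ : GQ, τ • primeOf A = primeOf A → ∀ x ∈ A, τ x ∈ A := by
    intro τ hτ x hx
    obtain ⟨b, c, hb, hc, hbn, hxbc⟩ := hfrac x hx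
    have hτb : τ b ∉ A.nonunits := by
      intro h
      apply hbn
      have h1 : (τ • (⟨b, hb⟩ : Zbar)) ∈ primeOf A := by
        rw [mem_primeOf]
        exact h
      rw [← hτ, Ideal.smul_mem_pointwise_smul_iff, mem_primeOf] at h1
      exact h1
    have h1 : v (τ b) = 1 := one_of _ (hint τ b hb) hτb
    have h2 : τ x * τ b = τ c := by rw [← map_mul, hxbc]
    rw [← A.valuation_le_one_iff]
    have h3 : v (τ x) = v (τ c) := by rw [← h2, map_mul, h1, mul_one]
    show v (τ x) ≤ 1
    rw [h3]
    exact hle _ (hint τ c hc)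
  have hδ' : δ⁻¹ • primeOf A = primeOf A := by
    rw [inv_smul_eq_iff, hδ]
  rw [MulAction.mem_stabilizer_iff]
  ext x
  rw [ValuationSubring.mem_pointwise_smul_iff_inv_smul_mem]
  constructor
  · intro h
    have := gen δ hδ _ h
    simpa using this
  · intro h
    exact gen δ⁻¹ hδ' x h

/-- Decomposition-group analogue of `Fermat.Agent.S13.Minkowski.exists_mul_mem_inertia`. -/
theorem exists_mul_mem_decomposition (J : Subgroup GQ) [J.Normal] (hJ : IsClosed (J : Set GQ))
    (A : ValuationSubring Qbar) (γ : GQ)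
    (hγ : ∀ x : Qbar, IsIntegral ℤ x → (∀ j ∈ J, j x = x) →
      (x ∈ A.nonunits ↔ γ x ∈ A.nonunits)) :
    ∃ j ∈ J, j * γ ∈ A.decompositionSubgroup ℚ := by
  classical
  haveI := zbar_smulCommClass
  haveI := zbar_isInvariant
  haveI := isGalois_rat
  haveI := isIntegral_rat
  letI : TopologicalSpace Zbar := ⊥
  haveI : DiscreteTopology Zbar := ⟨rfl⟩
  haveI : ContinuousSMul GQ Zbar := by
    rw [continuousSMul_iff_stabilizer_isOpen]
    intro x
    convert stabilizer_isOpen_of_isIntegral (K := ℚ) (L := Qbar) x.1 using 1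
    ext σ
    simp only [SetLike.mem_coe, MulAction.mem_stabilizer_iff]
    constructor
    · intro h
      exact congrArg Subtype.val h
    · intro h
      exact Subtype.ext h
  haveI : CompactSpace J := isCompact_iff_compactSpace.mp hJ.isCompact
  set Q := primeOf A with hQ
  let O := FixedPoints.subalgebra ℤ Zbar J
  haveI : Algebra.IsInvariant O Zbar J := ⟨fun x h ↦ ⟨⟨x, h⟩, rfl⟩⟩
  haveI : SMulCommClass J O Zbar := ⟨fun j o z ↦ by
    show j • ((o : Zbar) * z) = (o : Zbar) * j • z
    rw [smul_mul', o.2 j]⟩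
  have key : ∀ x : Zbar, x ∈ O → (x ∈ Q ↔ γ • x ∈ Q) := by
    intro x hx
    rw [mem_primeOf, mem_primeOf]
    exact hγ x.1 x.2 (fun j hj => congrArg Subtype.val (hx ⟨j, hj⟩))
  have hinvO : ∀ x : Zbar, x ∈ O → γ⁻¹ • x ∈ O := by
    intro x hx j
    have h1 : γ * (j : GQ) * γ⁻¹ ∈ J := Subgroup.Normal.conj_mem inferInstance _ j.2 γ
    have h2 : (γ * (j : GQ) * γ⁻¹) • x = x := hx ⟨_, h1⟩
    show (j : GQ) • γ⁻¹ • x = γ⁻¹ • x
    rw [eq_inv_smul_iff, ← mul_smul, ← mul_smul]
    exact h2
  have hunder : (γ • Q).under O = Q.under O := by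
    ext x
    simp only [Ideal.under_def, Ideal.mem_comap]
    rw [Ideal.mem_pointwise_smul_iff_inv_smul_mem]
    have h := key _ (hinvO x.1 x.2)
    rw [smul_inv_smul] at h
    exact h
  obtain ⟨g, hg⟩ := Algebra.IsInvariant.exists_smul_of_under_eq_of_profinite (A := O) (G := J)
    (γ • Q) Q hunder
  refine ⟨(g : GQ), g.2, ?_⟩
  apply mem_decompositionSubgroup_of_smul_primeOf
  rw [mul_smul]
  exact hg.symm

end Fermat.Agent.S14.G
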