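import Mathlib
import Fermat.Prelude.Def_FLTPrelim_Ramification

/-!
# S14, module G, task G-5b: primes of number fields come from valuation subrings of `ℚ̄`
-/

set_option autoImplicit false

namespace Fermat.Agent.S14.G

open NumberField

local notation "Qbar" => AlgebraicClosure ℚ
local notation "GQ" => (AlgebraicClosure ℚ ≃ₐ[ℚ] AlgebraicClosure ℚ)

/-- A prime ideal containing a nonzero natural number contains a prime number. -/
private theorem exists_prime_natCast_mem {R : Type*} [CommRing R] (P : Ideal R) (hP : P.IsPrime)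
    (n : ℕ) (hn : n ≠ 0) (h : (n : R) ∈ P) : ∃ ℓ : ℕ, ℓ.Prime ∧ (ℓ : R) ∈ P := by
  induction n using Nat.recOnMul with
  | zero => exact absurd rfl hn
  | one =>
    exfalso
    apply hP.ne_top
    rw [Ideal.eq_top_iff_one]
    simpa using h
  | prime p hp => exact ⟨p, hp, h⟩
  | mul a b iha ihb =>
    rw [Nat.cast_mul] at h
    rcases hP.mem_or_mem h with h | h
    · exact iha (left_ne_zero_of_mul hn) h
    · exact ihb (right_ne_zero_of_mul hn) h

/-- Every nonzero prime of the ring of integers of a number field mapping to `ℚ̄` is cut out by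
a valuation subring of `ℚ̄`. -/
theorem exists_valuationSubring_of_prime (F : Type) [Field F] [NumberField F] [Algebra F Qbar]
    (P : Ideal (𝓞 F)) (hP : P.IsPrime) (hP0 : P ≠ ⊥) :
    ∃ (ℓ : ℕ) (A : ValuationSubring Qbar), ℓ.Prime ∧ A.LiesOverPrime ℓ ∧
      ∀ x : 𝓞 F, x ∈ P ↔ algebraMap F Qbar (x : F) ∈ A.nonunits := by
  classical
  let φ : 𝓞 F →+* Qbar := (algebraMap F Qbar).comp (algebraMap (𝓞 F) F)
  have hφinj : Function.Injective φ :=
    (algebraMap F Qbar).injective.comp (RingOfIntegers.coe_injective)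
  let R : Subring Qbar := φ.range
  let φ' : 𝓞 F →+* R := φ.rangeRestrict
  have hφ'surj : Function.Surjective φ' := φ.rangeRestrict_surjective
  have hφ'inj : Function.Injective φ' := by
    intro x y hxy
    exact hφinj (congrArg Subtype.val hxy)
  have hI : P.map φ' ≠ ⊤ := by
    intro h
    have h1 : (P.map φ').comap φ' = P := Ideal.comap_map_of_bijective φ' ⟨hφ'inj, hφ'surj⟩
    rw [h, Ideal.comap_top] at h1
    exact hP.ne_top h1.symm
  obtain ⟨B, hRB, hB⟩ := Ideal.image_subset_nonunits_valuationSubring (P.map φ') hI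
  let ψ : 𝓞 F →+* B := φ.codRestrict B.toSubring (fun x => hRB ⟨x, rfl⟩)
  let J : Ideal (𝓞 F) := (IsLocalRing.maximalIdeal B).comap ψ
  have hJmem : ∀ x : 𝓞 F, x ∈ J ↔ φ x ∈ B.nonunits := by
    intro x
    rw [Ideal.mem_comap, ← ValuationSubring.coe_mem_nonunits_iff]
    rfl
  have hJtop : J ≠ ⊤ := (Ideal.IsPrime.comap ψ).ne_top
  have hPJ : P ≤ J := by
    intro x hx
    rw [hJmem]
    exact hB ⟨φ' x, Ideal.mem_map_of_mem φ' hx, rfl⟩
  have hPmax : P.IsMaximal := Ideal.IsPrime.isMaximal hP hP0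
  have hPJ' : P = J := hPmax.eq_of_le hJtop hPJ
  have hn0 : Ideal.absNorm P ≠ 0 := by
    rw [Ne, Ideal.absNorm_eq_zero_iff]
    exact hP0
  obtain ⟨ℓ, hℓ, hℓP⟩ := exists_prime_natCast_mem P hP _ hn0 (Ideal.absNorm_mem P)
  refine ⟨ℓ, B, hℓ, ?_, ?_⟩
  · have h1 : φ (ℓ : 𝓞 F) ∈ B.nonunits := (hJmem _).mp (hPJ hℓP)
    simpa [ValuationSubring.LiesOverPrime] using h1
  · intro x
    rw [hPJ', hJmem]
    rfl

end Fermat.Agent.S14.G
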