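import Mathlib
import Fermat.Prelude.Def_FLTPrelim_Ramification
import Fermat.Agent.Lib.Frobenius
import Fermat.Agent.S13.MinkowskiLift
import Fermat.Agent.S14.G.Decomp
import Fermat.Agent.S14.G.PrimeVal

/-!
# S14, module G, task G-6: inertia / decomposition groups of primes of the fixed field of `J`
-/

set_option autoImplicit false
set_option linter.style.haveILetI false

namespace Fermat.Agent.S14.G

open NumberField

local notation "Qbar" => AlgebraicClosure ℚ
local notation "GQ" => (AlgebraicClosure ℚ ≃ₐ[ℚ] AlgebraicClosure ℚ)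

/-- Lifting a `K`-automorphism of an intermediate field of `ℚ̄/K` to an element of `G_ℚ`
fixing `K`. -/
private theorem bridge_lift (K : IntermediateField ℚ Qbar) (M' : IntermediateField K Qbar)
    (τ : M' ≃ₐ[K] M') :
    ∃ γ : GQ, γ ∈ K.fixingSubgroup ∧ ∀ x : M', γ (x : Qbar) = ((τ x : M') : Qbar) := by
  haveI := Fermat.Agent.Lib.Frobenius.isGalois_rat
  haveI : Normal K Qbar := Normal.tower_top_of_normal ℚ K Qbar
  refine ⟨(τ.liftNormal Qbar).restrictScalars ℚ, ?_, ?_⟩
  · rw [IntermediateField.mem_fixingSubgroup_iff]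
    intro x hx
    exact (τ.liftNormal Qbar).commutes ⟨x, hx⟩
  · intro x
    exact τ.liftNormal_commutes Qbar x

/-- The fixed field of an open subgroup, regarded over a subfield `K`, is a number field. -/
private theorem bridge_numberField (J : Subgroup GQ) (hJ : IsOpen (J : Set GQ))
    (K : IntermediateField ℚ Qbar) (hKM : K ≤ IntermediateField.fixedField J) :
    NumberField (IntermediateField.extendScalars hKM) := by
  haveI := Fermat.Agent.Lib.Frobenius.isGalois_rat
  have hclosed : IsClosed (J : Set GQ) := Subgroup.isClosed_of_isOpen J hJ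
  set M := IntermediateField.fixedField J with hM
  have hJM : M.fixingSubgroup = J := InfiniteGalois.fixingSubgroup_fixedField ⟨J, hclosed⟩
  haveI : FiniteDimensional ℚ M := (InfiniteGalois.isOpen_iff_finite M).1 (by rw [hJM]; exact hJ)
  let e : M ≃ₗ[ℚ] (IntermediateField.extendScalars hKM) :=
    { toFun := fun x => ⟨x.1, (IntermediateField.mem_extendScalars hKM).2 x.2⟩
      invFun := fun x => ⟨x.1, (IntermediateField.mem_extendScalars hKM).1 x.2⟩
      left_inv := fun _ => rfl
      right_inv := fun _ => rfl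
      map_add' := fun _ _ => rfl
      map_smul' := fun r x => by
        apply Subtype.ext
        simp [Algebra.smul_def] }
  haveI : FiniteDimensional ℚ (IntermediateField.extendScalars hKM) := Module.Finite.equiv e
  exact ⟨⟩

/-- G-6a. -/
theorem inertia_trivial_of (J : Subgroup GQ) [J.Normal] (hJ : IsOpen (J : Set GQ))
    (K : IntermediateField ℚ Qbar) (hKM : K ≤ IntermediateField.fixedField J)
    (h : ∀ ℓ : ℕ, ℓ.Prime → ∀ A : ValuationSubring Qbar, A.LiesOverPrime ℓ →
      ∀ σ ∈ A.inertiaSubgroupIn ℚ, σ ∈ K.fixingSubgroup → σ ∈ J)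
    (P : Ideal (𝓞 (IntermediateField.extendScalars hKM))) (hP : P.IsPrime) (hP0 : P ≠ ⊥)
    (τ : (IntermediateField.extendScalars hKM) ≃ₐ[K] (IntermediateField.extendScalars hKM))
    (hτ : ∀ x : 𝓞 (IntermediateField.extendScalars hKM), ∃ y ∈ P,
      (y : IntermediateField.extendScalars hKM) = τ (x : IntermediateField.extendScalars hKM)
        - (x : IntermediateField.extendScalars hKM)) :
    τ = 1 := by
  classical
  haveI := Fermat.Agent.Lib.Frobenius.isGalois_rat
  have hclosed : IsClosed (J : Set GQ) := Subgroup.isClosed_of_isOpen J hJ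
  haveI := bridge_numberField J hJ K hKM
  obtain ⟨γ, hγK, hγ⟩ := bridge_lift K (IntermediateField.extendScalars hKM) τ
  obtain ⟨ℓ, A, hℓ, hA, hmem⟩ :=
    exists_valuationSubring_of_prime (IntermediateField.extendScalars hKM) P hP hP0
  have hJK : J ≤ K.fixingSubgroup := by
    intro j hj
    rw [IntermediateField.mem_fixingSubgroup_iff]
    intro x hx
    exact hKM hx ⟨j, hj⟩
  obtain ⟨j, hj, hjγ⟩ := Fermat.Agent.S13.Minkowski.exists_mul_mem_inertia J hclosed A γ (by
    intro x hx hfix
    have hxM : x ∈ IntermediateField.extendScalars hKM :=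
      (IntermediateField.mem_extendScalars hKM).2 (fun j => hfix j.1 j.2)
    have hxi : IsIntegral ℤ (⟨x, hxM⟩ : IntermediateField.extendScalars hKM) :=
      (isIntegral_algebraMap_iff (A := IntermediateField.extendScalars hKM) (B := Qbar)
        (algebraMap (IntermediateField.extendScalars hKM) Qbar).injective).1 hx
    obtain ⟨y, hy, hyx⟩ := hτ ⟨⟨x, hxM⟩, hxi⟩
    rw [hmem, hyx] at hy
    have h3 := hγ ⟨x, hxM⟩
    rw [h3]
    exact hy)
  have hγJ : γ ∈ J :=
    (Subgroup.mul_mem_cancel_left J hj).1 (h ℓ hℓ A hA _ hjγ (mul_mem (hJK hj) hγK))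
  ext x
  have h1 := hγ x
  have h2 : γ (x : Qbar) = x := ((IntermediateField.mem_extendScalars hKM).1 x.2) ⟨γ, hγJ⟩
  rw [h2] at h1
  exact h1.symm

/-- G-6b. -/
theorem stabilizer_trivial_of (J : Subgroup GQ) [J.Normal] (hJ : IsOpen (J : Set GQ))
    (K : IntermediateField ℚ Qbar) (hKM : K ≤ IntermediateField.fixedField J)
    (A : ValuationSubring Qbar)
    (h : ∀ σ ∈ A.decompositionSubgroup ℚ, σ ∈ K.fixingSubgroup → σ ∈ J)
    (P : Ideal (𝓞 (IntermediateField.extendScalars hKM)))
    (hP : ∀ x : 𝓞 (IntermediateField.extendScalars hKM),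
      x ∈ P ↔ (((x : IntermediateField.extendScalars hKM)) : Qbar) ∈ A.nonunits)
    (τ : (IntermediateField.extendScalars hKM) ≃ₐ[K] (IntermediateField.extendScalars hKM))
    (hτ : ∀ x : 𝓞 (IntermediateField.extendScalars hKM), x ∈ P ↔ ∃ y ∈ P,
      (y : IntermediateField.extendScalars hKM) = τ (x : IntermediateField.extendScalars hKM)) :
    τ = 1 := by
  classical
  haveI := Fermat.Agent.Lib.Frobenius.isGalois_rat
  have hclosed : IsClosed (J : Set GQ) := Subgroup.isClosed_of_isOpen J hJ
  obtain ⟨γ, hγK, hγ⟩ := bridge_lift K (IntermediateField.extendScalars hKM) τ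
  have hJK : J ≤ K.fixingSubgroup := by
    intro j hj
    rw [IntermediateField.mem_fixingSubgroup_iff]
    intro x hx
    exact hKM hx ⟨j, hj⟩
  obtain ⟨j, hj, hjγ⟩ := exists_mul_mem_decomposition J hclosed A γ (by
    intro x hx hfix
    have hxM : x ∈ IntermediateField.extendScalars hKM :=
      (IntermediateField.mem_extendScalars hKM).2 (fun j => hfix j.1 j.2)
    have hxi : IsIntegral ℤ (⟨x, hxM⟩ : IntermediateField.extendScalars hKM) :=
      (isIntegral_algebraMap_iff (A := IntermediateField.extendScalars hKM) (B := Qbar)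
        (algebraMap (IntermediateField.extendScalars hKM) Qbar).injective).1 hx
    have h3 := hγ ⟨x, hxM⟩
    rw [h3]
    have h4 := hτ ⟨⟨x, hxM⟩, hxi⟩
    rw [hP] at h4
    refine h4.trans ?_
    constructor
    · rintro ⟨y, hy, hyx⟩
      rw [hP, hyx] at hy
      exact hy
    · intro hy
      have hti : IsIntegral ℤ (τ ⟨x, hxM⟩) :=
        hxi.map (τ.toAlgHom.toRingHom.toIntAlgHom)
      refine ⟨⟨τ ⟨x, hxM⟩, hti⟩, ?_, rfl⟩
      rw [hP]
      exact hy)
  have hγJ : γ ∈ J :=
    (Subgroup.mul_mem_cancel_left J hj).1 (h _ hjγ (mul_mem (hJK hj) hγK))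
  ext x
  have h1 := hγ x
  have h2 : γ (x : Qbar) = x := ((IntermediateField.mem_extendScalars hKM).1 x.2) ⟨γ, hγJ⟩
  rw [h2] at h1
  exact h1.symm

end Fermat.Agent.S14.G
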