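import Mathlib

/-!
# S14, module G, task G-11: clearing denominators at a principal prime
-/

set_option autoImplicit false

namespace Fermat.Agent.S14.G

open NumberField IsDedekindDomain WithZero

theorem exists_mul_pow_eq_one_add (K : Type) [Field K] [NumberField K]
    (v : HeightOneSpectrum (𝓞 K)) (π : 𝓞 K) (hπ : v.asIdeal = Ideal.span {π}) (p n : ℕ) (hp : p ≠ 0)
    (z : K) (hz : v.valuation K (z - 1) ≤ exp (-((n + 1 : ℕ) : ℤ))) :
    ∃ y : K, y ≠ 0 ∧ ∃ c : 𝓞 K, z * y ^ p = 1 + (π : K) ^ n * (c : K) := by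
  have h1 : v.valuation K (z - 1) ≤ 1 := by
    refine hz.trans ?_
    rw [← exp_zero, exp_le_exp]
    omega
  obtain ⟨a, ⟨b, hb⟩, hab⟩ := v.exists_primeCompl_mul_eq_of_integer (z - 1) h1
  have hb' : b ∉ v.asIdeal := hb
  simp only at hab
  -- `a ∈ (π ^ (n + 1))`
  have hvb : v.valuation K (algebraMap (𝓞 K) K b) = 1 :=
    (HeightOneSpectrum.valuation_eq_one_iff_notMem (K := K) (v := v)).mpr hb'
  have hva : v.intValuation a ≤ exp (-((n + 1 : ℕ) : ℤ)) := by
    have h5 : v.valuation K (algebraMap (𝓞 K) K a) = v.intValuation a :=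
      HeightOneSpectrum.valuation_of_algebraMap (K := K) v a
    rw [← h5, ← hab, map_mul, hvb, mul_one]
    exact hz
  rw [HeightOneSpectrum.intValuation_le_pow_iff_mem, hπ, Ideal.span_singleton_pow,
    Ideal.mem_span_singleton] at hva
  obtain ⟨e, he⟩ := hva
  -- `b` is a unit modulo `π ^ (n + 1)`
  have hmax : v.asIdeal.IsMaximal := v.isMaximal
  obtain ⟨u, i, hi, hui⟩ := Ideal.IsMaximal.exists_inv_pow v.asIdeal hb' (n + 1)
  rw [hπ, Ideal.span_singleton_pow, Ideal.mem_span_singleton] at hi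
  obtain ⟨w, hw⟩ := hi
  -- `(u b) ^ p = 1 + π ^ (n + 1) * t`
  obtain ⟨t, ht⟩ : (u * b - 1) ∣ (u * b) ^ p - 1 ^ p := sub_dvd_pow_sub_pow _ _ _
  have hub : u * b - 1 = -(π ^ (n + 1) * w) := by rw [← hw]; linear_combination hui
  obtain ⟨p', rfl⟩ : ∃ p', p = p' + 1 := Nat.exists_eq_succ_of_ne_zero hp
  refine ⟨algebraMap (𝓞 K) K (u * b), ?_, π * (e * u * (u * b) ^ p' - w * t), ?_⟩
  · intro h0
    have h2 : u * b = 0 := (FaithfulSMul.algebraMap_injective (𝓞 K) K) (by rw [h0, map_zero])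
    rw [h2, zero_add] at hui
    apply v.isPrime.ne_top
    rw [Ideal.eq_top_iff_one, hπ, Ideal.mem_span_singleton, ← hui, hw]
    exact Dvd.dvd.mul_right (dvd_pow_self _ (Nat.succ_ne_zero n)) _
  · have hz' : z * algebraMap (𝓞 K) K b = algebraMap (𝓞 K) K (b + π ^ (n + 1) * e) := by
      rw [map_add, ← he, ← hab]
      ring
    have key : (b + π ^ (n + 1) * e) * u * (u * b) ^ p' =
        1 + π ^ n * (π * (e * u * (u * b) ^ p' - w * t)) := by
      have h3 : (u * b) ^ (p' + 1) = 1 - π ^ (n + 1) * w * t := by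
        rw [one_pow, hub] at ht
        linear_combination ht
      have h4 : (b + π ^ (n + 1) * e) * u * (u * b) ^ p' =
          (u * b) ^ (p' + 1) + π ^ (n + 1) * (e * u * (u * b) ^ p') := by ring
      rw [h4, h3]
      ring
    calc z * algebraMap (𝓞 K) K (u * b) ^ (p' + 1)
        = (z * algebraMap (𝓞 K) K b) * algebraMap (𝓞 K) K u * algebraMap (𝓞 K) K (u * b) ^ p' := by
          simp only [pow_succ, map_mul]; ring
      _ = algebraMap (𝓞 K) K ((b + π ^ (n + 1) * e) * u * (u * b) ^ p') := by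
          rw [hz']; simp only [map_mul, map_pow]
      _ = _ := by
          rw [key, map_add, map_one, map_mul, map_pow]

end Fermat.Agent.S14.G
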