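import Mathlib
import Fermat.Prelude.Def_ExtCitation_AdmissibleExtension_v2

/-!
# S14, module G, task G-1: the exponent `cycloExp` and the field `ℚ(ζ)` inside `ℚ̄`
-/

set_option autoImplicit false
set_option linter.style.haveILetI false

namespace Fermat.Agent.S14.G

open ExtCitation

local notation "Qbar" => AlgebraicClosure ℚ
local notation "GQ" => (AlgebraicClosure ℚ ≃ₐ[ℚ] AlgebraicClosure ℚ)

variable {p : ℕ} [Fact p.Prime]

private theorem cyclo_isAlgClosure_rat : IsAlgClosure ℚ (AlgebraicClosure ℚ) := by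
  have h : (DivisionRing.toRatAlgebra : Algebra ℚ (AlgebraicClosure ℚ)) =
      AlgebraicClosure.instAlgebra ℚ := Subsingleton.elim _ _
  rw [h]
  infer_instance

private theorem cyclo_isGalois_rat : IsGalois ℚ (AlgebraicClosure ℚ) := by
  have := cyclo_isAlgClosure_rat
  infer_instance

private theorem prim_pow_eq_pow_iff {ζ : Qbar} (hζ : IsPrimitiveRoot ζ p) {n m : ℕ} :
    ζ ^ n = ζ ^ m ↔ n ≡ m [MOD p] := by
  have hfin : IsOfFinOrder ζ :=
    isOfFinOrder_iff_pow_eq_one.mpr ⟨p, (Fact.out : p.Prime).pos, hζ.pow_eq_one⟩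
  rw [hfin.pow_eq_pow_iff_modEq, ← hζ.eq_orderOf]

theorem exists_primitiveRoot (p : ℕ) [Fact p.Prime] : ∃ ζ : Qbar, IsPrimitiveRoot ζ p := by
  haveI : NeZero p := ⟨(Fact.out : p.Prime).ne_zero⟩
  haveI : NeZero (p : Qbar) := ⟨Nat.cast_ne_zero.mpr (NeZero.ne p)⟩
  exact HasEnoughRootsOfUnity.exists_primitiveRoot Qbar p

theorem apply_eq_pow_cycloExp (σ : GQ) (ζ : Qbar) (hζ : ζ ^ p = 1) :
    σ ζ = ζ ^ cycloExp p σ := by
  haveI : NeZero p := ⟨(Fact.out : p.Prime).ne_zero⟩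
  have hp0 : p ≠ 0 := NeZero.ne p
  have hu : IsUnit ζ := IsUnit.of_pow_eq_one hζ hp0
  obtain ⟨t, rfl⟩ := hu
  have ht : t ∈ rootsOfUnity p Qbar := by
    rw [mem_rootsOfUnity]
    exact Units.ext (by simpa using hζ)
  exact modularCyclotomicCharacter.spec Qbar (card_rootsOfUnity_eq_self p)
    (σ : Qbar ≃+* Qbar) ht

theorem cycloExp_cast_eq_of_apply (σ : GQ) (ζ : Qbar) (hζ : IsPrimitiveRoot ζ p) (a : ℕ)
    (h : σ ζ = ζ ^ a) : ((cycloExp p σ : ℕ) : ZMod p) = (a : ZMod p) := by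
  have h1 := apply_eq_pow_cycloExp σ ζ hζ.pow_eq_one
  rw [h] at h1
  rw [ZMod.natCast_eq_natCast_iff]
  exact ((prim_pow_eq_pow_iff hζ).mp h1).symm

theorem cycloExp_cast_eq_one_iff (σ : GQ) (ζ : Qbar) (hζ : IsPrimitiveRoot ζ p) :
    ((cycloExp p σ : ℕ) : ZMod p) = 1 ↔ σ ζ = ζ := by
  constructor
  · intro h
    have h1 := apply_eq_pow_cycloExp σ ζ hζ.pow_eq_one
    have h2 : ((cycloExp p σ : ℕ) : ZMod p) = ((1 : ℕ) : ZMod p) := by simpa using h
    rw [ZMod.natCast_eq_natCast_iff] at h2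
    rw [h1, (prim_pow_eq_pow_iff hζ).mpr h2, pow_one]
  · intro h
    have := cycloExp_cast_eq_of_apply σ ζ hζ 1 (by simpa using h)
    simpa using this

private theorem cycloExp_cast (σ : GQ) :
    haveI : NeZero p := ⟨(Fact.out : p.Prime).ne_zero⟩
    ((cycloExp p σ : ℕ) : ZMod p) =
      ((modularCyclotomicCharacter Qbar (card_rootsOfUnity_eq_self p)
        (σ : Qbar ≃+* Qbar) : (ZMod p)ˣ) : ZMod p) := by
  haveI : NeZero p := ⟨(Fact.out : p.Prime).ne_zero⟩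
  unfold cycloExp
  exact ZMod.natCast_zmod_val _

theorem cycloExp_cast_mul (σ τ : GQ) :
    ((cycloExp p (σ * τ) : ℕ) : ZMod p)
      = ((cycloExp p σ : ℕ) : ZMod p) * ((cycloExp p τ : ℕ) : ZMod p) := by
  haveI : NeZero p := ⟨(Fact.out : p.Prime).ne_zero⟩
  rw [cycloExp_cast, cycloExp_cast, cycloExp_cast, ← Units.val_mul, ← map_mul]
  rfl

theorem cycloExp_cast_ne_zero (σ : GQ) : ((cycloExp p σ : ℕ) : ZMod p) ≠ 0 := by
  rw [cycloExp_cast]
  exact Units.ne_zero _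

theorem exists_cycloExp_cast_ne_one (h3 : 3 ≤ p) :
    ∃ σ : GQ, ((cycloExp p σ : ℕ) : ZMod p) ≠ 1 := by
  haveI := cyclo_isGalois_rat
  have hp : p.Prime := Fact.out
  obtain ⟨ζ, hζ⟩ := exists_primitiveRoot p
  have hζ2 : IsPrimitiveRoot (ζ ^ 2) p := by
    apply hζ.pow_of_coprime
    rw [Nat.coprime_comm, Nat.Prime.coprime_iff_not_dvd hp]
    intro hd
    have := Nat.le_of_dvd (by norm_num) hd
    omega
  have hm1 : minpoly ℚ ζ = Polynomial.cyclotomic p ℚ :=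
    (Polynomial.cyclotomic_eq_minpoly_rat hζ hp.pos).symm
  have hm2 : minpoly ℚ (ζ ^ 2) = Polynomial.cyclotomic p ℚ :=
    (Polynomial.cyclotomic_eq_minpoly_rat hζ2 hp.pos).symm
  have hconj : IsConjRoot ℚ ζ (ζ ^ 2) := by
    rw [IsConjRoot, hm1, hm2]
  obtain ⟨σ, hσ⟩ := isConjRoot_iff_exists_algEquiv.mp hconj
  refine ⟨σ⁻¹, ?_⟩
  intro h
  rw [cycloExp_cast_eq_one_iff _ ζ hζ] at h
  -- `σ (ζ ^ 2) = ζ`
  have h1 : σ ζ = ζ := by
    have := congrArg σ h
    simpa using this.symm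
  have h2 : ζ ^ 2 = ζ ^ 1 := by
    have : σ (ζ ^ 2) = σ ζ := by rw [hσ, h1]
    simpa using σ.injective this
  have h4 := (prim_pow_eq_pow_iff hζ).mp h2
  have h5 : p ∣ 2 - 1 := (Nat.modEq_iff_dvd' (by norm_num)).mp h4.symm
  have := Nat.le_of_dvd (by norm_num) h5
  omega

/-- `σ` fixes `ℚ(ζ)` pointwise iff it fixes `ζ`. -/
theorem mem_fixingSubgroup_adjoin_iff (ζ : Qbar) (σ : GQ) :
    σ ∈ (IntermediateField.adjoin ℚ {ζ}).fixingSubgroup ↔ σ ζ = ζ := by
  rw [IntermediateField.mem_fixingSubgroup_iff]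
  constructor
  · intro h
    exact h ζ (IntermediateField.mem_adjoin_simple_self ℚ ζ)
  · intro h x hx
    have hle : IntermediateField.adjoin ℚ {ζ} ≤
        IntermediateField.fixedField (Subgroup.zpowers σ) := by
      rw [IntermediateField.adjoin_simple_le_iff, IntermediateField.mem_fixedField_iff]
      rintro _ ⟨n, rfl⟩
      have hfix : ∀ n : ℕ, (σ ^ n) ζ = ζ := by
        intro n
        induction n with
        | zero => simp
        | succ n ih => rw [pow_succ, AlgEquiv.mul_apply, h, ih]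
      obtain ⟨m, rfl | rfl⟩ := n.eq_nat_or_neg
      · simpa using hfix m
      · have := hfix m
        simp only [zpow_neg, zpow_natCast]
        rw [AlgEquiv.aut_inv, AlgEquiv.symm_apply_eq]
        exact this.symm
    exact (IntermediateField.mem_fixedField_iff _ _).mp (hle hx) σ (Subgroup.mem_zpowers σ)

/-- An element of `ℚ̄` fixed by every automorphism fixing `ζ` lies in `ℚ(ζ)`. -/
theorem mem_adjoin_of_fixed (ζ z : Qbar) (h : ∀ σ : GQ, σ ζ = ζ → σ z = z) :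
    z ∈ IntermediateField.adjoin ℚ {ζ} := by
  haveI := cyclo_isGalois_rat
  rw [← InfiniteGalois.fixedField_fixingSubgroup (IntermediateField.adjoin ℚ {ζ}),
    IntermediateField.mem_fixedField_iff]
  intro σ hσ
  exact h σ ((mem_fixingSubgroup_adjoin_iff ζ σ).mp hσ)

end Fermat.Agent.S14.G
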