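import Mathlib

/-!
# S14, module G, task G-4b: equivariance of the Kummer generator
-/

set_option autoImplicit false

namespace Fermat.Agent.S14.G

local notation "Qbar" => AlgebraicClosure ℚ
local notation "GQ" => (AlgebraicClosure ℚ ≃ₐ[ℚ] AlgebraicClosure ℚ)

variable {p : ℕ} [Fact p.Prime]

/-- Equivariance: if `κ(γ⁻¹σγ) = a κ(σ)` where `γ ζ = ζ^a`, then `γ α / α^(a^2)` is fixed by the
stabiliser of `ζ`. -/
theorem fixed_apply_div_pow (ζ : Qbar) (hζ : IsPrimitiveRoot ζ p) (κ : GQ → ZMod p)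
    (α : Qbar) (hα0 : α ≠ 0) (hα : ∀ σ : GQ, σ ζ = ζ → σ α = ζ ^ (κ σ).val * α)
    (γ : GQ) (a : ℕ) (ha : γ ζ = ζ ^ a)
    (hconj : ∀ σ : GQ, σ ζ = ζ → κ (γ⁻¹ * σ * γ) = (a : ZMod p) * κ σ) :
    ∀ σ : GQ, σ ζ = ζ → σ (γ α / α ^ (a ^ 2)) = γ α / α ^ (a ^ 2) := by
  intro σ hσ
  have hp : p ≠ 0 := (Fact.out : p.Prime).ne_zero
  have hζ0 : ζ ≠ 0 := hζ.ne_zero hp
  -- the conjugate fixes `ζ`
  have hfix : (γ⁻¹ * σ * γ) ζ = ζ := by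
    have h1 : (γ⁻¹ * σ * γ) ζ = γ⁻¹ (σ (γ ζ)) := rfl
    rw [h1, ha, map_pow, hσ, ← ha]
    exact γ.symm_apply_apply ζ
  -- `σ (γ α)`
  have h2 : σ (γ α) = γ ((γ⁻¹ * σ * γ) α) := by
    have h1 : (γ⁻¹ * σ * γ) α = γ⁻¹ (σ (γ α)) := rfl
    rw [h1]
    exact (γ.apply_symm_apply (σ (γ α))).symm
  have h3 : σ (γ α) = ζ ^ (a * ((a : ZMod p) * κ σ).val) * γ α := by
    rw [h2, hα _ hfix, map_mul, map_pow, ha, hconj σ hσ, ← pow_mul]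
  have h4 : σ (α ^ (a ^ 2)) = ζ ^ ((κ σ).val * a ^ 2) * α ^ (a ^ 2) := by
    rw [map_pow, hα σ hσ, mul_pow, ← pow_mul]
  have h5 : ζ ^ (a * ((a : ZMod p) * κ σ).val) = ζ ^ ((κ σ).val * a ^ 2) := by
    have hfin : IsOfFinOrder ζ := isOfFinOrder_iff_pow_eq_one.mpr
      ⟨p, Nat.pos_of_ne_zero hp, hζ.pow_eq_one⟩
    rw [hfin.pow_eq_pow_iff_modEq, ← hζ.eq_orderOf, ← ZMod.natCast_eq_natCast_iff]
    push_cast
    rw [ZMod.natCast_zmod_val, ZMod.natCast_zmod_val]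
    ring
  rw [map_div₀, h3, h4, h5]
  have h6 : ζ ^ ((κ σ).val * a ^ 2) ≠ 0 := pow_ne_zero _ hζ0
  have h7 : α ^ (a ^ 2) ≠ 0 := pow_ne_zero _ hα0
  field_simp

end Fermat.Agent.S14.G
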