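import Mathlib

/-!
# S14, module G, task G-8: all valuations are `p`-th powers => the principal ideal is a `p`-th power
-/

set_option autoImplicit false

namespace Fermat.Agent.S14.G

open IsDedekindDomain WithZero

/-- The adic valuation of `x ≠ 0` is `exp (-count)` of the principal fractional ideal. -/
private theorem valuation_eq_exp_neg_count (R K : Type) [CommRing R] [IsDedekindDomain R] [Field K]
    [Algebra R K] [IsFractionRing R K] (v : HeightOneSpectrum R) (x : K) (hx : x ≠ 0) :
    v.valuation K x =
      exp (-(FractionalIdeal.count K v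
        (FractionalIdeal.spanSingleton (nonZeroDivisors R) x))) := by
  classical
  obtain ⟨n, d, hnd⟩ := IsLocalization.exists_mk'_eq (nonZeroDivisors R) x
  have hd0 : (d : R) ≠ 0 := nonZeroDivisors.coe_ne_zero d
  have hdK : algebraMap R K (d : R) ≠ 0 := by
    simp [hd0]
  have hn0 : n ≠ 0 := by
    rintro rfl
    apply hx
    rw [← hnd, IsFractionRing.mk'_eq_div, map_zero, zero_div]
  have hI : FractionalIdeal.spanSingleton (nonZeroDivisors R) x ≠ 0 := by
    simpa [FractionalIdeal.spanSingleton_eq_zero_iff] using hx
  have hrep : FractionalIdeal.spanSingleton (nonZeroDivisors R) x =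
      FractionalIdeal.spanSingleton (nonZeroDivisors R) ((algebraMap R K) (d : R))⁻¹ *
        ((Ideal.span {n} : Ideal R) : FractionalIdeal (nonZeroDivisors R) K) := by
    rw [FractionalIdeal.coeIdeal_span_singleton, FractionalIdeal.spanSingleton_mul_spanSingleton,
      ← hnd, IsFractionRing.mk'_eq_div, div_eq_inv_mul]
  rw [FractionalIdeal.count_well_defined K v hI hrep, ← hnd, v.valuation_of_mk',
    v.intValuation_if_neg hn0, v.intValuation_if_neg hd0, ← exp_sub]
  congr 1
  ring

/-- If all valuations of `x ≠ 0` are `p`-th powers then `(x)` is the `p`-th power of a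
fractional ideal. -/
theorem exists_fractionalIdeal_pow_eq (R K : Type) [CommRing R] [IsDedekindDomain R] [Field K]
    [Algebra R K] [IsFractionRing R K] (p : ℕ) (hp : p ≠ 0) (x : K) (hx : x ≠ 0)
    (h : ∀ v : HeightOneSpectrum R, ∃ γ : ℤᵐ⁰, v.valuation K x = γ ^ p) :
    ∃ I : FractionalIdeal (nonZeroDivisors R) K,
      FractionalIdeal.spanSingleton (nonZeroDivisors R) x = I ^ p := by
  classical
  set J : FractionalIdeal (nonZeroDivisors R) K :=
    FractionalIdeal.spanSingleton (nonZeroDivisors R) x with hJ
  have hJ0 : J ≠ 0 := by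
    simpa [hJ, FractionalIdeal.spanSingleton_eq_zero_iff] using hx
  -- divisibility of all the counts
  have hdvd : ∀ v : HeightOneSpectrum R, (p : ℤ) ∣ FractionalIdeal.count K v J := by
    intro v
    obtain ⟨γ, hγ⟩ := h v
    rw [valuation_eq_exp_neg_count R K v x hx] at hγ
    have hγ0 : γ ≠ 0 := by
      rintro rfl
      rw [zero_pow hp] at hγ
      exact exp_ne_zero hγ
    obtain ⟨m, rfl⟩ : ∃ m : ℤ, γ = exp m := ⟨log γ, (exp_log hγ0).symm⟩
    rw [← exp_nsmul, exp_inj] at hγ
    refine ⟨-m, ?_⟩
    have : FractionalIdeal.count K v J = -(p • m) := by rw [← hγ, neg_neg]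
    rw [this]
    simp
  choose e he using hdvd
  have hfin : (fun v : HeightOneSpectrum R =>
      ((v.asIdeal : FractionalIdeal (nonZeroDivisors R) K)) ^ (e v)).HasFiniteMulSupport := by
    have h1 := FractionalIdeal.finite_factors (K := K) J
    rw [Filter.eventually_cofinite] at h1
    refine h1.subset ?_
    intro v hv
    simp only [Function.mem_mulSupport] at hv
    simp only [Set.mem_ofPred_eq]
    intro h0
    apply hv
    have : e v = 0 := by
      have h2 := he v
      rw [h0] at h2
      have hp' : (p : ℤ) ≠ 0 := by exact_mod_cast hp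
      rcases mul_eq_zero.mp h2.symm with h3 | h3
      · exact absurd h3 hp'
      · exact h3
    rw [this, zpow_zero]
  refine ⟨∏ᶠ v : HeightOneSpectrum R,
    ((v.asIdeal : FractionalIdeal (nonZeroDivisors R) K)) ^ (e v), ?_⟩
  rw [finprod_pow hfin, ← FractionalIdeal.finprod_heightOneSpectrum_factorization' K hJ0]
  refine finprod_congr fun v => ?_
  rw [he v, mul_comm, zpow_mul, zpow_natCast]

end Fermat.Agent.S14.G
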