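import Mathlib
import Fermat.Prelude.Def_ExtCitation_AdmissibleExtension_v2
import Fermat.Agent.S14.G.Cyclo

/-!
# S14, module G, task G-3: the Kummer character `κ` attached to an admissible extension
-/

set_option autoImplicit false

namespace Fermat.Agent.S14.G

open ExtCitation

local notation "Qbar" => AlgebraicClosure ℚ
local notation "GQ" => (AlgebraicClosure ℚ ≃ₐ[ℚ] AlgebraicClosure ℚ)

variable {p : ℕ} [Fact p.Prime]
variable {V : Type} [AddCommGroup V] [Module (ZMod p) V]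
  [DistribMulAction (AlgebraicClosure ℚ ≃ₐ[ℚ] AlgebraicClosure ℚ) V]
  [SMulCommClass (AlgebraicClosure ℚ ≃ₐ[ℚ] AlgebraicClosure ℚ) (ZMod p) V]

private theorem kappa_finite_V (C : Submodule (ZMod p) V) (h : IsAdmissibleExtension p V C) :
    Finite V :=
  Nat.finite_of_card_ne_zero (h.card_total ▸ pow_ne_zero 2 (Fact.out (p := p.Prime)).ne_zero)

private theorem kappa_finrank_V (C : Submodule (ZMod p) V) (h : IsAdmissibleExtension p V C) :
    Module.finrank (ZMod p) V = 2 := by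
  haveI := kappa_finite_V C h
  have hp : p.Prime := Fact.out
  have h1 := Module.natCard_eq_pow_finrank (K := ZMod p) (V := V)
  rw [h.card_total, Nat.card_zmod] at h1
  exact (Nat.pow_right_injective hp.two_le h1).symm

private theorem kappa_finrank_C (C : Submodule (ZMod p) V) (h : IsAdmissibleExtension p V C) :
    Module.finrank (ZMod p) C = 1 := by
  haveI := kappa_finite_V C h
  have hp : p.Prime := Fact.out
  have h1 := Module.natCard_eq_pow_finrank (K := ZMod p) (V := C)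
  rw [h.card_sub, Nat.card_zmod] at h1
  have h2 : p ^ 1 = p ^ Module.finrank (ZMod p) C := by rw [pow_one]; exact h1
  exact (Nat.pow_right_injective hp.two_le h2).symm

private theorem kappa_exists_c0 (C : Submodule (ZMod p) V) (h : IsAdmissibleExtension p V C) :
    ∃ c0 ∈ C, c0 ≠ 0 ∧ ∀ x ∈ C, ∃ k : ZMod p, x = k • c0 := by
  have hC := kappa_finrank_C C h
  haveI : Nontrivial C := Module.nontrivial_of_finrank_eq_succ (n := 0) hC
  obtain ⟨c, hc⟩ := exists_ne (0 : C)
  refine ⟨c, c.2, fun h0 => hc (Subtype.ext h0), fun x hx => ?_⟩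
  obtain ⟨k, hk⟩ := (finrank_eq_one_iff_of_nonzero' c hc).1 hC ⟨x, hx⟩
  exact ⟨k, by simpa using (congrArg Subtype.val hk).symm⟩

private theorem kappa_exists_v0 (C : Submodule (ZMod p) V) (h : IsAdmissibleExtension p V C) :
    ∃ v0 : V, v0 ∉ C ∧ ∀ v : V, ∃ a : ZMod p, ∃ c ∈ C, v = a • v0 + c := by
  haveI := kappa_finite_V C h
  have hq : Module.finrank (ZMod p) (V ⧸ C) = 1 := by
    have := Submodule.finrank_quotient_add_finrank C
    rw [kappa_finrank_V C h, kappa_finrank_C C h] at this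
    omega
  haveI : Nontrivial (V ⧸ C) := Module.nontrivial_of_finrank_eq_succ (n := 0) hq
  obtain ⟨w, hw⟩ := exists_ne (0 : V ⧸ C)
  obtain ⟨v0, rfl⟩ := Submodule.Quotient.mk_surjective C w
  refine ⟨v0, fun hv => hw ((Submodule.Quotient.mk_eq_zero C).2 hv), fun v => ?_⟩
  obtain ⟨a, ha⟩ := (finrank_eq_one_iff_of_nonzero' _ hw).1 hq (Submodule.Quotient.mk v)
  refine ⟨a, v - a • v0, ?_, by abel⟩
  rw [← Submodule.Quotient.mk_eq_zero C, Submodule.Quotient.mk_sub, Submodule.Quotient.mk_smul, ha,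
    sub_self]

private theorem kappa_chi_one : ((cycloExp p (1 : GQ) : ℕ) : ZMod p) = 1 := by
  have h := cycloExp_cast_mul (p := p) (1 : GQ) 1
  rw [mul_one] at h
  have h0 := cycloExp_cast_ne_zero (p := p) (1 : GQ)
  exact (mul_right_cancel₀ h0 (by rw [one_mul]; exact h)).symm

private theorem kappa_chi_conj (γ σ : GQ) (hσ : ((cycloExp p σ : ℕ) : ZMod p) = 1) :
    ((cycloExp p (γ⁻¹ * σ * γ) : ℕ) : ZMod p) = 1 := by
  rw [cycloExp_cast_mul, cycloExp_cast_mul, hσ, mul_one, ← cycloExp_cast_mul, inv_mul_cancel,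
    kappa_chi_one]

/-- `κ σ` is defined by `σ v₀ = v₀ + κ(σ) c₀` for `σ` with trivial cyclotomic exponent
(junk value otherwise). -/
theorem exists_kappa (C : Submodule (ZMod p) V) (h : IsAdmissibleExtension p V C) :
    ∃ κ : GQ → ZMod p,
      (∀ σ τ : GQ, ((cycloExp p σ : ℕ) : ZMod p) = 1 → ((cycloExp p τ : ℕ) : ZMod p) = 1 →
        κ (σ * τ) = κ σ + κ τ) ∧
      (∀ σ : GQ, ((cycloExp p σ : ℕ) : ZMod p) = 1 → (κ σ = 0 ↔ ∀ v : V, σ • v = v)) ∧
      (∀ γ σ : GQ, ((cycloExp p σ : ℕ) : ZMod p) = 1 →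
        κ (γ⁻¹ * σ * γ) = ((cycloExp p γ : ℕ) : ZMod p) * κ σ) := by
  classical
  obtain ⟨c0, hc0C, hc0, hspan⟩ := kappa_exists_c0 C h
  obtain ⟨v0, hv0, hdec⟩ := kappa_exists_v0 C h
  have hinj : ∀ k k' : ZMod p, k • c0 = k' • c0 → k = k' := fun k k' hk =>
    smul_left_injective (ZMod p) hc0 hk
  have hex : ∀ σ : GQ, ((cycloExp p σ : ℕ) : ZMod p) = 1 → ∃ k : ZMod p, σ • v0 = v0 + k • c0 := by
    intro σ hσ
    have h1 := h.cyclo_quot σ v0
    rw [hσ, one_smul] at h1
    obtain ⟨k, hk⟩ := hspan _ h1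
    exact ⟨k, by rw [← hk]; abel⟩
  let κ : GQ → ZMod p := fun σ =>
    if hσ : ∃ k : ZMod p, σ • v0 = v0 + k • c0 then hσ.choose else 0
  have hκ : ∀ σ : GQ, ((cycloExp p σ : ℕ) : ZMod p) = 1 → σ • v0 = v0 + κ σ • c0 := by
    intro σ hσ
    have hσ' := hex σ hσ
    have : κ σ = hσ'.choose := dif_pos hσ'
    rw [this]
    exact hσ'.choose_spec
  have huniq : ∀ (σ : GQ) (k : ZMod p), ((cycloExp p σ : ℕ) : ZMod p) = 1 →
      σ • v0 = v0 + k • c0 → κ σ = k := by
    intro σ k hσ hk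
    apply hinj
    have := hκ σ hσ
    rw [hk] at this
    exact (add_left_cancel this).symm
  refine ⟨κ, ?_, ?_, ?_⟩
  · intro σ τ hσ hτ
    apply huniq
    · rw [cycloExp_cast_mul, hσ, hτ, mul_one]
    · rw [mul_smul, hκ τ hτ, smul_add, hκ σ hσ, smul_comm, h.fixed_sub σ c0 hc0C, add_smul,
        add_assoc]
  · intro σ hσ
    constructor
    · intro h0 v
      obtain ⟨a, c, hc, rfl⟩ := hdec v
      have h1 := hκ σ hσ
      rw [h0, zero_smul, add_zero] at h1
      rw [smul_add, smul_comm, h1, h.fixed_sub σ c hc]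
    · intro hv
      apply huniq σ 0 hσ
      rw [hv v0, zero_smul, add_zero]
  · intro γ σ hσ
    apply huniq _ _ (kappa_chi_conj γ σ hσ)
    set χ : ZMod p := ((cycloExp p γ : ℕ) : ZMod p) with hχ
    have hcC : γ • v0 - χ • v0 ∈ C := h.cyclo_quot γ v0
    have hγ : γ • v0 = χ • v0 + (γ • v0 - χ • v0) := by abel
    have h1 : σ • γ • v0 = γ • v0 + (χ * κ σ) • c0 := by
      conv_lhs => rw [hγ]
      rw [smul_add, smul_comm σ χ v0, hκ σ hσ, h.fixed_sub σ _ hcC, smul_add, mul_smul]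
      abel
    rw [mul_smul, mul_smul, h1, smul_add, inv_smul_smul, smul_comm, h.fixed_sub γ⁻¹ c0 hc0C]

/-- An automorphism acting trivially on `V` has trivial cyclotomic exponent. -/
theorem cycloExp_cast_eq_one_of_trivial (C : Submodule (ZMod p) V)
    (h : IsAdmissibleExtension p V C) (σ : GQ) (hσ : ∀ v : V, σ • v = v) :
    ((cycloExp p σ : ℕ) : ZMod p) = 1 := by
  obtain ⟨v0, hv0, -⟩ := kappa_exists_v0 C h
  by_contra hne
  apply hv0
  have h1 := h.cyclo_quot σ v0
  rw [hσ v0] at h1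
  have h2 : (1 - ((cycloExp p σ : ℕ) : ZMod p)) • v0 ∈ C := by
    rw [sub_smul, one_smul]; exact h1
  have h3 : (1 - ((cycloExp p σ : ℕ) : ZMod p)) ≠ 0 := sub_ne_zero.2 (Ne.symm hne)
  have h4 := C.smul_mem (1 - ((cycloExp p σ : ℕ) : ZMod p))⁻¹ h2
  rwa [smul_smul, inv_mul_cancel₀ h3, one_smul] at h4

/-- Local splitting: an element of the decomposition group at a place over `p` with trivial
cyclotomic exponent acts trivially on `V`. -/
theorem trivial_of_mem_decomposition (C : Submodule (ZMod p) V)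
    (h : IsAdmissibleExtension p V C) (A : ValuationSubring Qbar) (hA : A.LiesOverPrime p)
    (σ : GQ) (hσ : σ ∈ A.decompositionSubgroup ℚ) (h1 : ((cycloExp p σ : ℕ) : ZMod p) = 1) :
    ∀ v : V, σ • v = v := by
  obtain ⟨C', hstab, hcompl⟩ := h.locally_split A hA
  have hC' : ∀ x ∈ C', σ • x = x := by
    intro x hx
    have h2 := h.cyclo_quot σ x
    rw [h1, one_smul] at h2
    have h3 : σ • x - x ∈ C' := C'.sub_mem (hstab σ hσ x hx) hx
    have h4 : σ • x - x ∈ C ⊓ C' := ⟨h2, h3⟩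
    rw [hcompl.inf_eq_bot, Submodule.mem_bot] at h4
    exact sub_eq_zero.1 h4
  intro v
  have hv : v ∈ C ⊔ C' := by rw [hcompl.sup_eq_top]; exact Submodule.mem_top
  obtain ⟨c, hc, c', hc', rfl⟩ := Submodule.mem_sup.1 hv
  rw [smul_add, h.fixed_sub σ c hc, hC' c' hc']

end Fermat.Agent.S14.G
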