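import Mathlib

/-!
# S14, module G, task G-9: a prime with trivial decomposition group => `K` is dense in `M`
-/

set_option autoImplicit false

namespace Fermat.Agent.S14.G

open NumberField IsDedekindDomain WithZero

/-- The automorphism of `𝓞 M` induced by an automorphism of `M`. -/
private noncomputable def rho {K M : Type} [Field K] [Field M] [Algebra K M] (σ : M ≃ₐ[K] M) :
    𝓞 M ≃+* 𝓞 M :=
  RingOfIntegers.mapRingEquiv (σ : M ≃+* M)

private lemma rho_coe {K M : Type} [Field K] [Field M] [Algebra K M] (σ : M ≃ₐ[K] M)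
    (x : 𝓞 M) : ((rho σ x : 𝓞 M) : M) = σ (x : M) := rfl

private lemma mem_pow_of_mem_comap_pow {R : Type} [CommRing R] (e : R ≃+* R) (I : Ideal R)
    (n : ℕ) {x : R} (hx : x ∈ (Ideal.comap (e : R →+* R) I) ^ n) : e x ∈ I ^ n := by
  have h1 : Ideal.map (e : R →+* R) ((Ideal.comap (e : R →+* R) I) ^ n) ≤ I ^ n := by
    rw [Ideal.map_pow]
    exact Ideal.pow_right_mono Ideal.map_comap_le n
  exact h1 (Ideal.mem_map_of_mem _ hx)

/-- The integral case. -/
private lemma exists_sub_mem_pow (K M : Type) [Field K] [NumberField K] [Field M]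
    [NumberField M] [Algebra K M] [IsGalois K M] (w : HeightOneSpectrum (𝓞 M))
    (hD : ∀ τ : M ≃ₐ[K] M,
      (∀ x : 𝓞 M, x ∈ w.asIdeal ↔ ∃ y ∈ w.asIdeal, (y : M) = τ (x : M)) → τ = 1)
    (b : 𝓞 M) (n : ℕ) :
    ∃ t : K, ∃ z ∈ w.asIdeal ^ n, (z : M) = (b : M) - algebraMap K M t := by
  classical
  let P : (M ≃ₐ[K] M) → Ideal (𝓞 M) := fun σ => Ideal.comap (rho σ : 𝓞 M →+* 𝓞 M) w.asIdeal
  have hmem : ∀ (σ : M ≃ₐ[K] M) (x : 𝓞 M), x ∈ P σ ↔ rho σ x ∈ w.asIdeal := fun σ x => Iff.rfl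
  have hprime : ∀ σ ∈ (Finset.univ : Finset (M ≃ₐ[K] M)), Prime (P σ) := by
    intro σ _
    have hp : (P σ).IsPrime := Ideal.comap_isPrime _ _
    refine (Ideal.prime_iff_isPrime ?_).mpr hp
    intro h0
    apply w.ne_bot
    rw [eq_bot_iff]
    intro y hy
    have : (rho σ).symm y ∈ P σ := by
      rw [hmem, RingEquiv.apply_symm_apply]
      exact hy
    rw [h0, Ideal.mem_bot] at this
    have h2 := congrArg (rho σ) this
    rw [RingEquiv.apply_symm_apply, map_zero] at h2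
    rw [h2]
    exact Ideal.zero_mem _
  have hinj : ∀ᵉ (σ ∈ (Finset.univ : Finset (M ≃ₐ[K] M))) (τ ∈ (Finset.univ : Finset (M ≃ₐ[K] M))),
      σ ≠ τ → P σ ≠ P τ := by
    intro σ _ τ _ hne hP
    apply hne
    have h1 : τ * σ⁻¹ = 1 := by
      apply hD
      intro x
      have hx : x ∈ w.asIdeal ↔ rho τ ((rho σ).symm x) ∈ w.asIdeal := by
        rw [← hmem τ, ← hP, hmem σ, RingEquiv.apply_symm_apply]
      have hco : ((rho τ ((rho σ).symm x) : 𝓞 M) : M) = (τ * σ⁻¹) (x : M) := by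
        rw [rho_coe]
        rfl
      constructor
      · intro h
        exact ⟨_, hx.mp h, hco⟩
      · rintro ⟨y, hy, hyx⟩
        apply hx.mpr
        have : y = rho τ ((rho σ).symm x) := RingOfIntegers.ext (hyx.trans hco.symm)
        rwa [← this]
    exact (mul_inv_eq_one.mp h1).symm
  obtain ⟨e, he⟩ := IsDedekindDomain.exists_forall_sub_mem_ideal P (fun _ => n) hprime hinj
    (fun σ => if σ.1 = 1 then 1 else 0)
  have he1 : e - 1 ∈ w.asIdeal ^ n := by
    have h := he 1 (Finset.mem_univ _)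
    simp only [if_true] at h
    have h2 := mem_pow_of_mem_comap_pow (rho (1 : M ≃ₐ[K] M)) w.asIdeal n h
    have h3 : rho (1 : M ≃ₐ[K] M) (e - 1) = e - 1 := RingOfIntegers.ext rfl
    rwa [h3] at h2
  have heσ : ∀ σ : M ≃ₐ[K] M, σ ≠ 1 → rho σ e ∈ w.asIdeal ^ n := by
    intro σ hσ
    have h := he σ (Finset.mem_univ _)
    simp only [hσ, if_false, sub_zero] at h
    exact mem_pow_of_mem_comap_pow (rho σ) w.asIdeal n h
  refine ⟨Algebra.trace K M ((e * b : 𝓞 M) : M),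
    -((e - 1) * b) - ∑ σ ∈ (Finset.univ : Finset (M ≃ₐ[K] M)).erase 1, rho σ (e * b), ?_, ?_⟩
  · refine Ideal.sub_mem _ (Ideal.neg_mem_iff _ |>.mpr (Ideal.mul_mem_right _ _ he1)) ?_
    refine Ideal.sum_mem _ fun σ hσ => ?_
    rw [map_mul]
    exact Ideal.mul_mem_right _ _ (heσ σ (Finset.ne_of_mem_erase hσ))
  · rw [trace_eq_sum_automorphisms, ← Finset.add_sum_erase _ _ (Finset.mem_univ (1 : M ≃ₐ[K] M))]
    push_cast
    simp only [rho_coe, AlgEquiv.one_apply]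
    push_cast
    ring

/-- `M/K` Galois, `w` a prime of `M` whose stabiliser in `Gal(M/K)` is trivial.
Then `K` is `w`-adically dense in `M`. -/
theorem exists_valuation_sub_le (K M : Type) [Field K] [NumberField K] [Field M]
    [NumberField M] [Algebra K M] [IsGalois K M] (w : HeightOneSpectrum (𝓞 M))
    (hD : ∀ τ : M ≃ₐ[K] M,
      (∀ x : 𝓞 M, x ∈ w.asIdeal ↔ ∃ y ∈ w.asIdeal, (y : M) = τ (x : M)) → τ = 1)
    (β : M) (N : ℤ) :
    ∃ t : K, w.valuation M (β - algebraMap K M t) ≤ exp (-N) := by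
  obtain ⟨d, hd0, hd'⟩ := exists_integral_multiples ℤ ℚ ({β} : Finset M)
  have hd : IsIntegral ℤ (d • β) := hd' β (Finset.mem_singleton_self β)
  have hdM : ((d : ℤ) : M) ≠ 0 := Int.cast_ne_zero.mpr hd0
  have hwd : w.valuation M ((d : ℤ) : M) ≠ 0 := (Valuation.ne_zero_iff _).mpr hdM
  obtain ⟨m, hm⟩ : ∃ m : ℤ, w.valuation M ((d : ℤ) : M) = exp m :=
    ⟨log (w.valuation M ((d : ℤ) : M)), (exp_log hwd).symm⟩
  obtain ⟨b, hco⟩ : ∃ b : 𝓞 M, (b : M) = (d : M) * β :=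
    ⟨⟨d • β, hd⟩, zsmul_eq_mul β d⟩
  obtain ⟨t, z, hz, hzt⟩ := exists_sub_mem_pow K M w hD b (N - m).toNat
  refine ⟨t / (d : K), ?_⟩
  have hzv : w.valuation M (z : M) ≤ exp (-(((N - m).toNat : ℕ) : ℤ)) := by
    have := (w.intValuation_le_pow_iff_mem z (N - m).toNat).mpr hz
    rwa [← w.valuation_of_algebraMap (K := M)] at this
  have hβ : β - algebraMap K M (t / (d : K)) = (z : M) * ((d : ℤ) : M)⁻¹ := by
    rw [hzt, map_div₀, map_intCast, hco]
    field_simp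
  rw [hβ, map_mul, map_inv₀, hm, ← exp_neg]
  calc w.valuation M (z : M) * exp (-m) ≤ exp (-(((N - m).toNat : ℕ) : ℤ)) * exp (-m) :=
        mul_le_mul_left hzv _
    _ = exp (-(((N - m).toNat : ℕ) : ℤ) + -m) := (exp_add _ _).symm
    _ ≤ exp (-N) := by
        rw [exp_le_exp]
        have := Int.self_le_toNat (N - m)
        omega

end Fermat.Agent.S14.G
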