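import Mathlib
import Fermat.Agent.S14.G.Dense

/-!
# S14, module G, task G-10: `x = α^p` is locally a `p`-th power at a prime below a prime with
trivial decomposition group
-/

set_option autoImplicit false

namespace Fermat.Agent.S14.G

open NumberField IsDedekindDomain WithZero

/-- If `x = α^p`, `α ∈ M`, then `x` is a `p`-th power times an element `v`-adically close
to `1`. -/
theorem exists_valuation_div_pow_sub_one_le (K M : Type) [Field K] [NumberField K] [Field M]
    [NumberField M] [Algebra K M] [IsGalois K M]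
    (v : HeightOneSpectrum (𝓞 K)) (w : HeightOneSpectrum (𝓞 M))
    [w.asIdeal.LiesOver v.asIdeal]
    (hD : ∀ τ : M ≃ₐ[K] M,
      (∀ x : 𝓞 M, x ∈ w.asIdeal ↔ ∃ y ∈ w.asIdeal, (y : M) = τ (x : M)) → τ = 1)
    (p : ℕ) (x : K) (α : M) (hα : α ≠ 0) (hx : algebraMap K M x = α ^ p) (n : ℕ) :
    ∃ t : K, t ≠ 0 ∧ v.valuation K (x / t ^ p - 1) ≤ exp (-(n : ℤ)) := by
  classical
  set e := v.asIdeal.ramificationIdx' w.asIdeal with he
  have he0 : e ≠ 0 := Ideal.IsDedekindDomain.ramificationIdx'_ne_zero_of_liesOver w.asIdeal v.ne_bot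
  set W := w.valuation M with hW
  have hWα : W α ≠ 0 := (Valuation.ne_zero_iff _).2 hα
  obtain ⟨a, ha⟩ : ∃ a : ℤ, W α = exp a := ⟨log (W α), (exp_log hWα).symm⟩
  obtain ⟨t, ht⟩ := exists_valuation_sub_le K M w hD α (-(a - n * e - 1))
  rw [neg_neg] at ht
  have hlt : W (α - algebraMap K M t) < W α := by
    refine lt_of_le_of_lt ht ?_
    rw [ha, exp_lt_exp]
    have : (0 : ℤ) ≤ n * e := by positivity
    omega
  have hWt : W (algebraMap K M t) = W α := by
    have h1 : algebraMap K M t = α - (α - algebraMap K M t) := by ring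
    rw [h1]
    exact Valuation.map_sub_eq_of_lt_left _ hlt
  have htM : algebraMap K M t ≠ 0 := by
    rw [← Valuation.ne_zero_iff W, hWt]; exact hWα
  have ht0 : t ≠ 0 := by
    intro h; apply htM; rw [h, map_zero]
  refine ⟨t, ht0, ?_⟩
  set u : M := α / algebraMap K M t with hu
  have hu1 : W (u - 1) ≤ exp (-((n : ℤ) * e) - 1) := by
    have h1 : u - 1 = (α - algebraMap K M t) / algebraMap K M t := by
      rw [hu]; field_simp
    rw [h1, map_div₀, hWt, ha]
    rw [div_le_iff₀ (by simp), ← exp_add]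
    refine le_trans ht (le_of_eq ?_)
    congr 1
    ring
  have hWu : W u = 1 := by
    rw [hu, map_div₀, hWt, div_self hWα]
  have hsum : W (∑ i ∈ Finset.range p, u ^ i) ≤ 1 := by
    apply Valuation.map_sum_le
    intro i _
    rw [map_pow, hWu, one_pow]
  have hup : W (u ^ p - 1) ≤ exp (-((n : ℤ) * e)) := by
    rw [← mul_geom_sum, map_mul]
    calc W (u - 1) * W (∑ i ∈ Finset.range p, u ^ i) ≤ exp (-((n : ℤ) * e) - 1) * 1 :=
          mul_le_mul' hu1 hsum
      _ = exp (-((n : ℤ) * e) - 1) := mul_one _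
      _ ≤ exp (-((n : ℤ) * e)) := by rw [exp_le_exp]; omega
  have hmap : algebraMap K M (x / t ^ p - 1) = u ^ p - 1 := by
    rw [map_sub, map_div₀, map_pow, hx, map_one, hu, div_pow]
  have hval := HeightOneSpectrum.valuation_liesOver M v w (x / t ^ p - 1)
  rw [hmap] at hval
  have h2 : v.valuation K (x / t ^ p - 1) ^ e ≤ (exp (-(n : ℤ))) ^ e := by
    rw [hval, ← exp_nsmul]
    refine le_trans hup (le_of_eq ?_)
    congr 1
    simp
    ring
  exact (pow_le_pow_iff_left₀ zero_le zero_le he0).1 h2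

end Fermat.Agent.S14.G
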