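import Mathlib

/-!
# S14, module G, task G-4a: Kummer generator (Lagrange resolvent / Hilbert 90 inside `ℚ̄`)
-/

set_option autoImplicit false

namespace Fermat.Agent.S14.G

local notation "Qbar" => AlgebraicClosure ℚ
local notation "GQ" => (AlgebraicClosure ℚ ≃ₐ[ℚ] AlgebraicClosure ℚ)

variable {p : ℕ} [Fact p.Prime]

namespace Resolvent

theorem isGalois_rat' : IsGalois ℚ (AlgebraicClosure ℚ) := by
  have h : (DivisionRing.toRatAlgebra : Algebra ℚ (AlgebraicClosure ℚ)) =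
      AlgebraicClosure.instAlgebra ℚ := Subsingleton.elim _ _
  have : IsAlgClosure ℚ (AlgebraicClosure ℚ) := by
    rw [h]
    infer_instance
  infer_instance

/-- The weight `j ↦ ζ^{-j}` on `ZMod p`. -/
noncomputable def wt (ζ : Qbar) (j : ZMod p) : Qbar := (ζ⁻¹) ^ j.val

theorem wt_add (ζ : Qbar) (hζ : IsPrimitiveRoot ζ p) (j k : ZMod p) :
    wt ζ (j + k) = wt ζ j * wt ζ k := by
  unfold wt
  have h1 : (ζ⁻¹) ^ p = 1 := by rw [inv_pow, hζ.pow_eq_one, inv_one]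
  rw [ZMod.val_add, ← pow_add, ← pow_eq_pow_mod _ h1]

theorem wt_zero (ζ : Qbar) : wt ζ (0 : ZMod p) = 1 := by
  unfold wt
  simp

theorem wt_mul_pow (ζ : Qbar) (hζ : IsPrimitiveRoot ζ p) (k : ZMod p) :
    wt ζ k * ζ ^ k.val = 1 := by
  unfold wt
  have h0 : ζ ≠ 0 := hζ.ne_zero (Fact.out : p.Prime).ne_zero
  rw [inv_pow, inv_mul_cancel₀ (pow_ne_zero _ h0)]

end Resolvent

open Resolvent in
/-- Let `κ` be additive on the stabiliser of `ζ` and trivial on the fixing subgroup of a number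
field `F` (whose elements fix `ζ`).  Then there is `α ≠ 0` with `σ α = ζ^κ(σ) α` for all `σ`
fixing `ζ`. -/
theorem exists_kummer_generator (ζ : Qbar) (hζ : IsPrimitiveRoot ζ p) (κ : GQ → ZMod p)
    (hadd : ∀ σ τ : GQ, σ ζ = ζ → τ ζ = ζ → κ (σ * τ) = κ σ + κ τ)
    (F : IntermediateField ℚ Qbar) [FiniteDimensional ℚ F]
    (hF : ∀ σ ∈ F.fixingSubgroup, σ ζ = ζ ∧ κ σ = 0) :
    ∃ α : Qbar, α ≠ 0 ∧ ∀ σ : GQ, σ ζ = ζ → σ α = ζ ^ (κ σ).val * α := by
  classical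
  have := isGalois_rat'
  have hp : p.Prime := Fact.out
  have hκ1 : κ 1 = 0 := by
    have := hadd 1 1 rfl rfl
    simpa using this
  have hinvζ : ∀ σ : GQ, σ ζ = ζ → σ⁻¹ ζ = ζ := by
    intro σ hσ
    have : σ⁻¹ (σ ζ) = ζ := by
      rw [← AlgEquiv.mul_apply, inv_mul_cancel, AlgEquiv.one_apply]
    rwa [hσ] at this
  have hκinv : ∀ σ : GQ, σ ζ = ζ → κ σ⁻¹ = - κ σ := by
    intro σ hσ
    have := hadd σ⁻¹ σ (hinvζ σ hσ) hσ
    rw [inv_mul_cancel, hκ1] at this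
    exact eq_neg_of_add_eq_zero_left this.symm
  have hmulζ : ∀ σ τ : GQ, σ ζ = ζ → τ ζ = ζ → (σ * τ) ζ = ζ := by
    intro σ τ hσ hτ
    rw [AlgEquiv.mul_apply, hτ, hσ]
  have hpow : ∀ σ : GQ, σ ζ = ζ → ∀ n : ℕ, (σ ^ n) ζ = ζ ∧ κ (σ ^ n) = n * κ σ := by
    intro σ hσ n
    induction n with
    | zero => simp [hκ1]
    | succ n ih =>
      refine ⟨?_, ?_⟩
      · rw [pow_succ]; exact hmulζ _ _ ih.1 hσ
      · rw [pow_succ, hadd _ _ ih.1 hσ, ih.2]; push_cast; ring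
  by_cases htriv : ∀ σ : GQ, σ ζ = ζ → κ σ = 0
  · refine ⟨1, one_ne_zero, fun σ hσ => ?_⟩
    rw [htriv σ hσ]; simp
  push Not at htriv
  obtain ⟨τ0, hτ0ζ, hτ0κ⟩ := htriv
  -- normalise `κ τ = 1`
  obtain ⟨τ, hτζ, hτκ⟩ : ∃ τ : GQ, τ ζ = ζ ∧ κ τ = 1 := by
    refine ⟨τ0 ^ ((κ τ0)⁻¹).val, (hpow τ0 hτ0ζ _).1, ?_⟩
    rw [(hpow τ0 hτ0ζ _).2, ZMod.natCast_zmod_val, inv_mul_cancel₀ hτ0κ]
  have hτpow : ∀ j : ZMod p, (τ ^ j.val) ζ = ζ ∧ κ (τ ^ j.val) = j := by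
    intro j
    refine ⟨(hpow τ hτζ _).1, ?_⟩
    rw [(hpow τ hτζ _).2, hτκ, mul_one, ZMod.natCast_zmod_val]
  -- the subgroup `J`
  let J : Subgroup GQ :=
    { carrier := {σ | σ ζ = ζ ∧ κ σ = 0}
      one_mem' := ⟨rfl, hκ1⟩
      mul_mem' := by
        rintro a b ⟨ha, ha'⟩ ⟨hb, hb'⟩
        exact ⟨hmulζ a b ha hb, by rw [hadd a b ha hb, ha', hb', add_zero]⟩
      inv_mem' := by
        rintro a ⟨ha, ha'⟩
        exact ⟨hinvζ a ha, by rw [hκinv a ha, ha', neg_zero]⟩ }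
  have hJmem : ∀ σ : GQ, σ ∈ J ↔ (σ ζ = ζ ∧ κ σ = 0) := fun σ => Iff.rfl
  have hJopen : IsOpen (J : Set GQ) :=
    Subgroup.isOpen_mono (H₁ := F.fixingSubgroup) (fun σ hσ => hF σ hσ)
      (IntermediateField.fixingSubgroup_isOpen F)
  have hJclosed : IsClosed (J : Set GQ) := OpenSubgroup.isClosed ⟨J, hJopen⟩
  let M : IntermediateField ℚ Qbar := IntermediateField.fixedField J
  have hMJ : M.fixingSubgroup = J :=
    InfiniteGalois.fixingSubgroup_fixedField (⟨J, hJclosed⟩ : ClosedSubgroup GQ)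
  have hMfix : ∀ θ : M, ∀ g ∈ J, g (θ : Qbar) = θ := by
    intro θ g hg
    have := (IntermediateField.mem_fixedField_iff J (θ : Qbar)).1 θ.2 g hg
    exact this
  -- the translation property
  have htrans : ∀ (θ : M) (σ : GQ), σ ζ = ζ → ∀ j : ZMod p,
      σ ((τ ^ j.val) (θ : Qbar)) = (τ ^ (j + κ σ).val) (θ : Qbar) := by
    intro θ σ hσ j
    have hmem : (τ ^ (j + κ σ).val)⁻¹ * (σ * τ ^ j.val) ∈ J := by
      rw [hJmem]
      have h1 := hτpow (j + κ σ)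
      have h2 := hτpow j
      have h3 : (σ * τ ^ j.val) ζ = ζ := hmulζ _ _ hσ h2.1
      refine ⟨hmulζ _ _ (hinvζ _ h1.1) h3, ?_⟩
      rw [hadd _ _ (hinvζ _ h1.1) h3, hκinv _ h1.1, h1.2, hadd _ _ hσ h2.1, h2.2]
      ring
    have h := hMfix θ _ hmem
    rw [AlgEquiv.mul_apply, AlgEquiv.mul_apply] at h
    have h' := congrArg (τ ^ (j + κ σ).val) h
    rw [← AlgEquiv.mul_apply, mul_inv_cancel, AlgEquiv.one_apply] at h'
    exact h'
  -- the resolvent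
  let R : M → Qbar := fun θ => ∑ j : ZMod p, wt ζ j * (τ ^ j.val) (θ : Qbar)
  have hσwt : ∀ σ : GQ, σ ζ = ζ → ∀ j : ZMod p, σ (wt ζ j) = wt ζ j := by
    intro σ hσ j
    unfold wt
    rw [map_pow, map_inv₀, hσ]
  have hR : ∀ (θ : M) (σ : GQ), σ ζ = ζ → σ (R θ) = ζ ^ (κ σ).val * R θ := by
    intro θ σ hσ
    have e1 : σ (R θ) = ∑ j : ZMod p, wt ζ j * (τ ^ (j + κ σ).val) (θ : Qbar) := by
      simp only [R, map_sum, map_mul, hσwt σ hσ, htrans θ σ hσ]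
    have e2 : R θ = ∑ j : ZMod p, wt ζ (j + κ σ) * (τ ^ (j + κ σ).val) (θ : Qbar) :=
      (Equiv.sum_comp (Equiv.addRight (κ σ))
        (fun j : ZMod p => wt ζ j * (τ ^ j.val) (θ : Qbar))).symm
    rw [e1, e2, Finset.mul_sum]
    refine Finset.sum_congr rfl fun j _ => ?_
    rw [wt_add ζ hζ]
    have := wt_mul_pow ζ hζ (κ σ)
    calc wt ζ j * (τ ^ (j + κ σ).val) (θ : Qbar)
        = (wt ζ (κ σ) * ζ ^ (κ σ).val) * (wt ζ j * (τ ^ (j + κ σ).val) (θ : Qbar)) := by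
          rw [this, one_mul]
      _ = _ := by ring
  -- non-vanishing by Dedekind independence
  have hne : ∃ θ : M, R θ ≠ 0 := by
    by_contra hcon
    push Not at hcon
    let g : ZMod p → (M →* Qbar) := fun j =>
      ((τ ^ j.val : GQ).toAlgHom.toRingHom.comp (algebraMap M Qbar) : M →+* Qbar).toMonoidHom
    have hg : ∀ (j : ZMod p) (θ : M), g j θ = (τ ^ j.val) (θ : Qbar) := fun j θ => rfl
    have hginj : Function.Injective g := by
      intro i j hij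
      have hmem : (τ ^ j.val)⁻¹ * τ ^ i.val ∈ M.fixingSubgroup := by
        rw [IntermediateField.mem_fixingSubgroup_iff]
        intro x hx
        have h1 : g i ⟨x, hx⟩ = g j ⟨x, hx⟩ := by rw [hij]
        rw [hg, hg] at h1
        change ((τ ^ j.val)⁻¹ * τ ^ i.val) x = x
        rw [AlgEquiv.mul_apply]
        have h1' : (τ ^ i.val) x = (τ ^ j.val) x := h1
        rw [h1', ← AlgEquiv.mul_apply, inv_mul_cancel, AlgEquiv.one_apply]
      rw [hMJ, hJmem] at hmem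
      have h2 := hmem.2
      rw [hadd _ _ (hinvζ _ (hτpow j).1) (hτpow i).1, hκinv _ (hτpow j).1, (hτpow j).2,
        (hτpow i).2] at h2
      have : i - j = 0 := by rw [← h2]; ring
      exact sub_eq_zero.1 this
    have hli : LinearIndependent Qbar (fun j : ZMod p => (g j : M → Qbar)) :=
      (linearIndependent_monoidHom M Qbar).comp g hginj
    rw [Fintype.linearIndependent_iff] at hli
    have h0 := hli (fun j => wt ζ j) (by
      funext θ
      have := hcon θ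
      simpa [R, hg, Finset.sum_apply] using this) 0
    rw [wt_zero] at h0
    exact one_ne_zero h0
  obtain ⟨θ, hθ⟩ := hne
  exact ⟨R θ, hθ, fun σ hσ => hR θ σ hσ⟩

end Fermat.Agent.S14.G
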