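import Mathlib
import Fermat.Prelude.Def_ExtCitation_AdmissibleExtension_v2
import Fermat.Agent.S14.G.Cyclo

/-!
# S14, module G, task G-2: if `G_{ℚ(ζ)}` acts trivially on `V` then `V` splits globally
-/

set_option autoImplicit false

namespace Fermat.Agent.S14.G

open ExtCitation

local notation "Qbar" => AlgebraicClosure ℚ
local notation "GQ" => (AlgebraicClosure ℚ ≃ₐ[ℚ] AlgebraicClosure ℚ)

variable {p : ℕ} [Fact p.Prime]
variable {V : Type} [AddCommGroup V] [Module (ZMod p) V]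
  [DistribMulAction (AlgebraicClosure ℚ ≃ₐ[ℚ] AlgebraicClosure ℚ) V]
  [SMulCommClass (AlgebraicClosure ℚ ≃ₐ[ℚ] AlgebraicClosure ℚ) (ZMod p) V]

omit [Module (ZMod p) V] [SMulCommClass (AlgebraicClosure ℚ ≃ₐ[ℚ] AlgebraicClosure ℚ) (ZMod p) V] in
/-- Under the triviality hypothesis, the action on `V` is commutative. -/
private lemma smul_comm_of_trivial
    (htriv : ∀ σ : GQ, ((cycloExp p σ : ℕ) : ZMod p) = 1 → ∀ v : V, σ • v = v)
    (σ g : GQ) (x : V) : g • σ • x = σ • g • x := by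
  set τ : GQ := (σ * g)⁻¹ * (g * σ) with hτ
  have h1 : (σ * g) * τ = g * σ := by rw [hτ]; group
  have h2 : ((cycloExp p τ : ℕ) : ZMod p) = 1 := by
    have h3 := cycloExp_cast_mul (p := p) (σ * g) τ
    rw [h1, cycloExp_cast_mul g σ, cycloExp_cast_mul σ g] at h3
    have h4 : ((cycloExp p σ : ℕ) : ZMod p) * ((cycloExp p g : ℕ) : ZMod p) ≠ 0 :=
      mul_ne_zero (cycloExp_cast_ne_zero σ) (cycloExp_cast_ne_zero g)
    have h5 : ((cycloExp p σ : ℕ) : ZMod p) * ((cycloExp p g : ℕ) : ZMod p) * 1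
        = ((cycloExp p σ : ℕ) : ZMod p) * ((cycloExp p g : ℕ) : ZMod p)
          * ((cycloExp p τ : ℕ) : ZMod p) := by
      rw [← h3, mul_one, mul_comm]
    exact (mul_left_cancel₀ h4 h5).symm
  calc g • σ • x = (g * σ) • x := (mul_smul _ _ _).symm
    _ = ((σ * g) * τ) • x := by rw [h1]
    _ = (σ * g) • τ • x := mul_smul _ _ _
    _ = (σ * g) • x := by rw [htriv τ h2 x]
    _ = σ • g • x := mul_smul _ _ _

theorem splitsGlobally_of_trivial (h3 : 3 ≤ p) (C : Submodule (ZMod p) V)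
    (h : IsAdmissibleExtension p V C)
    (htriv : ∀ σ : GQ, ((cycloExp p σ : ℕ) : ZMod p) = 1 → ∀ v : V, σ • v = v) :
    SplitsGlobally C := by
  obtain ⟨g, hg⟩ := exists_cycloExp_cast_ne_one (p := p) h3
  set χ : ZMod p := ((cycloExp p g : ℕ) : ZMod p) with hχ
  have hχ1 : χ - 1 ≠ 0 := sub_ne_zero.mpr hg
  let T : V →ₗ[ZMod p] V := DistribSMul.toLinearMap (ZMod p) V g - χ • LinearMap.id
  have hT : ∀ v : V, T v = g • v - χ • v := fun v => rfl
  have hTC : ∀ c ∈ C, T c = (1 - χ) • c := fun c hc => by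
    rw [hT, h.fixed_sub g c hc, sub_smul, one_smul]
  refine ⟨LinearMap.ker T, ?_, ?_⟩
  · intro σ x hx
    rw [LinearMap.mem_ker, hT] at hx ⊢
    rw [smul_comm_of_trivial htriv σ g x, sub_eq_zero.mp hx, smul_comm, sub_self]
  · refine ⟨?_, ?_⟩
    · rw [Submodule.disjoint_def]
      intro x hxC hxT
      rw [LinearMap.mem_ker, hTC x hxC] at hxT
      rcases smul_eq_zero.mp hxT with h0 | h0
      · exact absurd (by rw [← neg_sub, h0, neg_zero]) hχ1
      · exact h0
    · rw [codisjoint_iff, eq_top_iff]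
      rintro v -
      have hc : T v ∈ C := by rw [hT]; exact h.cyclo_quot g v
      have hv' : v + (χ - 1)⁻¹ • T v ∈ LinearMap.ker T := by
        rw [LinearMap.mem_ker, map_add, map_smul, hTC _ hc, smul_smul,
          show (χ - 1)⁻¹ * (1 - χ) = -1 by
            rw [← neg_sub χ 1, mul_neg, inv_mul_cancel₀ hχ1]]
        simp
      have : v = -((χ - 1)⁻¹ • T v) + (v + (χ - 1)⁻¹ • T v) := by abel
      rw [this]
      exact Submodule.add_mem_sup (C.neg_mem (C.smul_mem _ hc)) hv'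

end Fermat.Agent.S14.G
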