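import Mathlib

/-!
# S14, module G, task G-7: trivial inertia groups => valuations of `x = α^p` are `p`-th powers
-/

set_option autoImplicit false

namespace Fermat.Agent.S14.G

open NumberField IsDedekindDomain WithZero

/-- `M/K` Galois extension of number fields all of whose inertia groups are trivial.
If `x = α^p` with `α ∈ M` then every `v`-adic valuation of `x` is a `p`-th power. -/
theorem valuation_eq_pow_of_inertia_trivial (K M : Type) [Field K] [NumberField K] [Field M]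
    [NumberField M] [Algebra K M] [IsGalois K M]
    (hI : ∀ P : Ideal (𝓞 M), P.IsPrime → P ≠ ⊥ → ∀ τ : M ≃ₐ[K] M,
      (∀ x : 𝓞 M, ∃ y ∈ P, (y : M) = τ (x : M) - (x : M)) → τ = 1)
    (p : ℕ) (x : K) (α : M) (hx : algebraMap K M x = α ^ p) (v : HeightOneSpectrum (𝓞 K)) :
    ∃ γ : ℤᵐ⁰, v.valuation K x = γ ^ p := by
  classical
  have hvmax : v.asIdeal.IsMaximal := v.isMaximal
  obtain ⟨P, hPmax, hPv⟩ :=
    Ideal.exists_maximal_ideal_liesOver_of_isIntegral (S := 𝓞 M) v.asIdeal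
  have hPprime : P.IsPrime := hPmax.isPrime
  have hP0 : P ≠ ⊥ := Ideal.ne_bot_of_liesOver_of_ne_bot v.ne_bot P
  let w : HeightOneSpectrum (𝓞 M) := ⟨P, hPprime, hP0⟩
  have hwv : w.asIdeal.LiesOver v.asIdeal := hPv
  let _ : MulSemiringAction Gal(M/K) (𝓞 M) := IsIntegralClosure.MulSemiringAction (𝓞 K) K M (𝓞 M)
  have := IsGaloisGroup.of_isFractionRing Gal(M/K) (𝓞 K) (𝓞 M) K M
  have hsub : Subsingleton (P.inertia Gal(M/K)) := by
    refine ⟨fun a b => ?_⟩
    have h1 : ∀ τ : P.inertia Gal(M/K), τ.1 = 1 := by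
      intro τ
      apply hI P hPprime hP0 τ.1
      intro y
      refine ⟨τ.1 • y - y, τ.2 y, ?_⟩
      have h := algebraMap_galRestrict_apply (𝓞 K) τ.1 y
      show ((τ.1 • y : 𝓞 M) : M) - (y : M) = _
      congr 1
    exact Subtype.ext ((h1 a).trans (h1 b).symm)
  have hcard : Nat.card (P.inertia Gal(M/K)) = 1 := Nat.card_eq_one_iff_unique.2 ⟨hsub, ⟨1⟩⟩
  have he : v.asIdeal.ramificationIdx' w.asIdeal = 1 := by
    rw [Ideal.ramificationIdx'_eq_ramificationIdx v.asIdeal w.asIdeal v.ne_bot,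
      ← Ideal.ramificationIdxIn_eq_ramificationIdx v.asIdeal w.asIdeal Gal(M/K),
      ← Ideal.card_inertia_eq_ramificationIdxIn (G := Gal(M/K)) v.asIdeal P]
    exact hcard
  have h := HeightOneSpectrum.valuation_liesOver M v w x
  rw [he, pow_one, hx, map_pow] at h
  exact ⟨_, h⟩

end Fermat.Agent.S14.G
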