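import Mathlib
import Fermat.Prelude.Def_ExtCitation_AdmissibleExtension_v2
import Fermat.Agent.S14.Core
import Fermat.Agent.S14.G.Cyclo
import Fermat.Agent.S14.G.Split
import Fermat.Agent.S14.G.Kappa
import Fermat.Agent.S14.G.Resolvent
import Fermat.Agent.S14.G.Equivariant
import Fermat.Agent.S14.G.Bridge
import Fermat.Agent.S14.G.Unramified
import Fermat.Agent.S14.G.IdealPow
import Fermat.Agent.S14.G.LocalPower
import Fermat.Agent.S14.G.ClearDenom
import Fermat.Agent.S05.Inertia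

/-!
# S14, module G: assembly.  `CoreStatement p → ExtVanishingCts p`.
-/

set_option autoImplicit false
set_option linter.style.haveILetI false

namespace Fermat.Agent.S14.G

open ExtCitation NumberField IsDedekindDomain WithZero
open Fermat.Agent.Lib.Frobenius

local notation "Qbar" => AlgebraicClosure ℚ
local notation "GQ" => (AlgebraicClosure ℚ ≃ₐ[ℚ] AlgebraicClosure ℚ)

variable {p : ℕ} [Fact p.Prime]

/-- The purely field-theoretic part of the argument.  `J` is an open normal subgroup of `G_ℚ`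
contained in the stabiliser of `ζ`; `α` is fixed by `J`, `α^p` is fixed by the stabiliser of `ζ`. -/
theorem kummer_generator_mem (hcore : CoreStatement p) (ζ : Qbar) (hζ : IsPrimitiveRoot ζ p)
    (J : Subgroup GQ) [J.Normal] (hJ : IsOpen (J : Set GQ)) (hJζ : ∀ σ ∈ J, σ ζ = ζ)
    (hin : ∀ ℓ : ℕ, ℓ.Prime → ∀ A : ValuationSubring Qbar, A.LiesOverPrime ℓ →
      ∀ σ ∈ A.inertiaSubgroupIn ℚ, σ ζ = ζ → σ ∈ J)
    (hdec : ∀ A : ValuationSubring Qbar, A.LiesOverPrime p →
      ∀ σ ∈ A.decompositionSubgroup ℚ, σ ζ = ζ → σ ∈ J)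
    (α : Qbar) (hα0 : α ≠ 0) (hαJ : ∀ σ ∈ J, σ α = α)
    (hαp : ∀ σ : GQ, σ ζ = ζ → σ (α ^ p) = α ^ p)
    (hc : ∀ (γ : GQ) (a : ℕ), γ ζ = ζ ^ a →
      ∀ σ : GQ, σ ζ = ζ → σ (γ α / α ^ (a ^ 2)) = γ α / α ^ (a ^ 2)) :
    α ∈ IntermediateField.adjoin ℚ {ζ} := by
  classical
  haveI := isGalois_rat
  have hp : p.Prime := Fact.out
  haveI : NeZero p := ⟨hp.ne_zero⟩
  set K : IntermediateField ℚ Qbar := IntermediateField.adjoin ℚ {ζ} with hK
  have hclosed : IsClosed (J : Set GQ) := Subgroup.isClosed_of_isOpen J hJ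
  set M := IntermediateField.fixedField J with hM
  have hJM : M.fixingSubgroup = J := InfiniteGalois.fixingSubgroup_fixedField ⟨J, hclosed⟩
  haveI : FiniteDimensional ℚ M := (InfiniteGalois.isOpen_iff_finite M).1 (by rw [hJM]; exact hJ)
  haveI : IsGalois ℚ M := (InfiniteGalois.normal_iff_isGalois M).1 (by rw [hJM]; infer_instance)
  have hKM : K ≤ M := by
    rw [hK, IntermediateField.adjoin_le_iff]
    rintro _ rfl
    exact fun j => hJζ j.1 j.2
  set M' := IntermediateField.extendScalars hKM with hM'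
  haveI : FiniteDimensional ℚ K := by
    have : IsIntegral ℚ ζ := (hζ.isIntegral hp.pos).tower_top
    exact IntermediateField.adjoin.finiteDimensional this
  haveI : NumberField K := ⟨⟩
  haveI : IsCyclotomicExtension {p} ℚ K := hζ.intermediateField_adjoin_isCyclotomicExtension ℚ
  let eMM : M ≃ₐ[ℚ] M' := 
    { toFun := fun x => ⟨x.1, x.2⟩
      invFun := fun x => ⟨x.1, x.2⟩
      left_inv := fun _ => rfl
      right_inv := fun _ => rfl
      map_mul' := fun _ _ => rfl
      map_add' := fun _ _ => rfl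
      commutes' := fun _ => rfl }
  haveI : FiniteDimensional ℚ M' := eMM.toLinearEquiv.finiteDimensional
  haveI : NumberField M' := ⟨⟩
  haveI : IsGalois ℚ M' := IsGalois.of_algEquiv eMM
  haveI : IsGalois K M' := IsGalois.tower_top_of_isGalois ℚ K M'
  let ζK : K := ⟨ζ, IntermediateField.mem_adjoin_simple_self ℚ ζ⟩
  have hζK : IsPrimitiveRoot ζK p := by
    exact (IsPrimitiveRoot.map_iff_of_injective (f := algebraMap K Qbar)
      (algebraMap K Qbar).injective).1 hζ
  let x : K := ⟨α ^ p, mem_adjoin_of_fixed ζ _ hαp⟩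
  have hx0 : x ≠ 0 := by
    intro h
    have : (x : Qbar) = 0 := congrArg Subtype.val h
    exact pow_ne_zero p hα0 this
  let αM : M' := ⟨α, fun j => hαJ j.1 j.2⟩
  have hαM0 : αM ≠ 0 := by
    intro h
    exact hα0 (congrArg Subtype.val h)
  have hx : algebraMap K M' x = αM ^ p := rfl
  have hfix : ∀ σ : GQ, σ ∈ K.fixingSubgroup ↔ σ ζ = ζ := mem_fixingSubgroup_adjoin_iff ζ
  -- (a)
  have ha : ∃ I : FractionalIdeal (nonZeroDivisors (𝓞 K)) K,
      FractionalIdeal.spanSingleton (nonZeroDivisors (𝓞 K)) x = I ^ p := by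
    apply exists_fractionalIdeal_pow_eq (𝓞 K) K p hp.ne_zero x hx0
    intro v
    apply valuation_eq_pow_of_inertia_trivial K M' _ p x αM hx v
    intro P hP hP0 τ hτ
    exact inertia_trivial_of J hJ K hKM
      (fun ℓ hℓ A hA σ hσ hσK => hin ℓ hℓ A hA σ hσ ((hfix σ).1 hσK)) P hP hP0 τ hτ
  -- (b)
  have hb : ∀ n : ℕ, ∃ y : K, y ≠ 0 ∧ ∃ c : 𝓞 K, x * y ^ p = 1 + (1 - ζK) ^ n * (c : K) := by
    intro n
    obtain ⟨A, hA⟩ := exists_liesOverPrime p hp
    have hint : ∀ z : 𝓞 M', IsIntegral ℤ (((z : M') : Qbar)) := fun z =>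
      (z.2 : IsIntegral ℤ (z : M')).map (IsScalarTower.toAlgHom ℤ M' Qbar)
    let f : 𝓞 M' →+* A :=
      { toFun := fun z => ⟨((z : M') : Qbar), mem_valuationSubring_of_isIntegral A (hint z)⟩
        map_one' := rfl
        map_mul' := fun _ _ => rfl
        map_zero' := rfl
        map_add' := fun _ _ => rfl }
    let P : Ideal (𝓞 M') := (IsLocalRing.maximalIdeal A).comap f
    have hmemP : ∀ z : 𝓞 M', z ∈ P ↔ (((z : M') : Qbar)) ∈ A.nonunits := by
      intro z
      rw [ValuationSubring.mem_nonunits_iff_exists_mem_maximalIdeal]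
      constructor
      · intro h
        exact ⟨mem_valuationSubring_of_isIntegral A (hint z), h⟩
      · rintro ⟨_, h⟩
        exact h
    haveI hPprime : P.IsPrime := Ideal.comap_isPrime _ _
    have hpP : (p : 𝓞 M') ∈ P := by
      rw [hmemP]
      have h0 : (p : Qbar) ∈ A.nonunits := hA
      simpa using h0
    have hP0 : P ≠ ⊥ := by
      intro h
      rw [h, Ideal.mem_bot] at hpP
      exact hp.ne_zero (by exact_mod_cast hpP)
    let w : HeightOneSpectrum (𝓞 M') := ⟨P, hPprime, hP0⟩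
    let π : 𝓞 K := hζK.toInteger - 1
    have hunder : P.under (𝓞 K) = Ideal.span {π} := by
      haveI : (P.under (𝓞 K)).IsPrime := inferInstance
      haveI : (P.under (𝓞 K)).LiesOver (Ideal.span {(p : ℤ)}) := by
        constructor
        have hmax : (Ideal.span {(p : ℤ)}).IsMaximal := Int.ideal_span_isMaximal_of_prime p
        apply hmax.eq_of_le
        · exact Ideal.IsPrime.ne_top inferInstance
        · rw [Ideal.span_singleton_le_iff_mem, Ideal.under_def, Ideal.mem_comap, Ideal.under_def,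
            Ideal.mem_comap]
          simpa using hpP
      exact IsCyclotomicExtension.Rat.eq_span_zeta_sub_one_of_liesOver' p K hζK (P.under (𝓞 K))
    have hv0 : P.under (𝓞 K) ≠ ⊥ := by
      rw [hunder]
      rw [Ne, Ideal.span_singleton_eq_bot]
      exact hζK.zeta_sub_one_prime'.ne_zero
    let v : HeightOneSpectrum (𝓞 K) := ⟨P.under (𝓞 K), inferInstance, hv0⟩
    haveI : w.asIdeal.LiesOver v.asIdeal := ⟨rfl⟩
    obtain ⟨t, ht0, ht⟩ := exists_valuation_div_pow_sub_one_le K M' v w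
      (fun τ hτ => stabilizer_trivial_of J hJ K hKM A
        (fun σ hσ hσK => hdec A hA σ hσ ((hfix σ).1 hσK)) P hmemP τ hτ) p x αM hαM0 hx (n + 1)
    obtain ⟨y, hy0, c, hc⟩ := exists_mul_pow_eq_one_add K v π hunder p n hp.ne_zero _ ht
    refine ⟨y / t, div_ne_zero hy0 ht0, (-1) ^ n * c, ?_⟩
    have hπ : (π : K) = -(1 - ζK) := by
      show algebraMap (𝓞 K) K (hζK.toInteger - 1) = _
      rw [map_sub, map_one]
      show ζK - 1 = _
      ring
    rw [hπ] at hc
    rw [div_pow, ← mul_div_assoc, mul_comm x, mul_div_assoc, mul_comm, hc]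
    push_cast
    rw [neg_pow]
    ring
  -- (c)
  have hcc : ∀ (g : K ≃ₐ[ℚ] K) (a : ℕ), g ζK = ζK ^ a → ∃ y : K, g x = x ^ (a ^ 2) * y ^ p := by
    intro g a hga
    haveI : IsGalois ℚ K := IsCyclotomicExtension.isGalois {p} ℚ K
    obtain ⟨γ, hγ⟩ := AlgEquiv.restrictNormalHom_surjective Qbar g
    have hγK : ∀ z : K, γ (z : Qbar) = ((g z : K) : Qbar) := by
      intro z
      rw [← hγ]
      exact (AlgEquiv.restrictNormal_commutes γ K z).symm
    have hγζ : γ ζ = ζ ^ a := by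
      have := hγK ζK
      rw [hga] at this
      exact this
    refine ⟨⟨γ α / α ^ (a ^ 2), mem_adjoin_of_fixed ζ _ (hc γ a hγζ)⟩, ?_⟩
    apply Subtype.ext
    rw [← hγK x]
    show γ (α ^ p) = (α ^ p) ^ (a ^ 2) * (γ α / α ^ (a ^ 2)) ^ p
    rw [map_pow, div_pow, ← pow_mul, ← pow_mul, mul_comm p, mul_div_cancel₀]
    exact pow_ne_zero _ hα0
  obtain ⟨y, hy⟩ := hcore K ζK hζK x hx0 ha hb hcc
  have hy' : α ^ p = (y : Qbar) ^ p := congrArg Subtype.val hy
  have hy0 : (y : Qbar) ≠ 0 := by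
    intro h
    rw [h, zero_pow hp.ne_zero] at hy'
    exact pow_ne_zero p hα0 hy'
  have h1 : (α / (y : Qbar)) ^ p = 1 := by
    rw [div_pow, hy', div_self (pow_ne_zero p hy0)]
  obtain ⟨i, -, hi⟩ := hζ.eq_pow_of_pow_eq_one h1
  have h2 : α = ζ ^ i * (y : Qbar) := by
    rw [hi, div_mul_cancel₀ _ hy0]
  rw [h2]
  exact K.mul_mem (pow_mem (IntermediateField.mem_adjoin_simple_self ℚ ζ) i) y.2

theorem extVanishingCts_of_core (h3 : 3 ≤ p) (hcore : CoreStatement p) :
    ExtCitation.ExtVanishingCts p := by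
  intro V _ _ _ _ C hadm
  have h := hadm.toIsAdmissibleExtension
  obtain ⟨ζ, hζ⟩ := exists_primitiveRoot p
  obtain ⟨κ, hadd, hzero, hconj⟩ := exists_kappa C h
  have hone : ∀ σ : GQ, σ ζ = ζ → ((cycloExp p σ : ℕ) : ZMod p) = 1 := fun σ hσ =>
    (cycloExp_cast_eq_one_iff σ ζ hζ).2 hσ
  let J : Subgroup GQ :=
    { carrier := {σ | ∀ v : V, σ • v = v}
      one_mem' := fun v => one_smul _ v
      mul_mem' := fun {a b} ha hb v => by rw [mul_smul, hb v, ha v]
      inv_mem' := fun {a} ha v => by rw [inv_smul_eq_iff, ha v] }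
  have hJmem : ∀ σ : GQ, σ ∈ J ↔ ∀ v : V, σ • v = v := fun σ => Iff.rfl
  haveI : J.Normal := ⟨fun n hn g v => by
    rw [mul_smul, mul_smul, hn, smul_inv_smul]⟩
  have hJopen : IsOpen (J : Set GQ) := hadm.open_kernel
  have hJζ : ∀ σ ∈ J, σ ζ = ζ := fun σ hσ =>
    (cycloExp_cast_eq_one_iff σ ζ hζ).1 (cycloExp_cast_eq_one_of_trivial C h σ hσ)
  haveI := isGalois_rat
  have hclosed : IsClosed (J : Set GQ) := Subgroup.isClosed_of_isOpen J hJopen
  set M := IntermediateField.fixedField J with hM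
  have hJM : M.fixingSubgroup = J := InfiniteGalois.fixingSubgroup_fixedField ⟨J, hclosed⟩
  haveI : FiniteDimensional ℚ M := (InfiniteGalois.isOpen_iff_finite M).1 (by rw [hJM]; exact hJopen)
  obtain ⟨α, hα0, hα⟩ := exists_kummer_generator ζ hζ κ
    (fun σ τ hσ hτ => hadd σ τ (hone σ hσ) (hone τ hτ)) M (fun σ hσ => by
      rw [hJM] at hσ
      exact ⟨hJζ σ hσ, (hzero σ (hone σ (hJζ σ hσ))).2 hσ⟩)
  have hmem : α ∈ IntermediateField.adjoin ℚ {ζ} := by
    apply kummer_generator_mem hcore ζ hζ J hJopen hJζ _ _ α hα0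
    · intro σ hσ
      rw [hα σ (hJζ σ hσ), (hzero σ (hone σ (hJζ σ hσ))).2 hσ]
      simp
    · intro σ hσ
      rw [map_pow, hα σ hσ, mul_pow, ← pow_mul, mul_comm _ p, pow_mul, hζ.pow_eq_one, one_pow,
        one_mul]
    · intro γ a ha
      apply fixed_apply_div_pow ζ hζ κ α hα0 hα γ a ha
      intro σ hσ
      rw [hconj γ σ (hone σ hσ), cycloExp_cast_eq_of_apply γ ζ hζ a ha]
    · intro ℓ hℓ A hA σ hσ hσζ
      by_cases hℓp : ℓ = p
      · subst hℓp
        exact trivial_of_mem_decomposition C h A hA σ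
          (Fermat.Agent.S05.inertia_mem_decomposition A hσ) (hone σ hσζ)
      · exact h.unramified_outside ℓ hℓ hℓp A hA σ hσ
    · intro A hA σ hσ hσζ
      exact trivial_of_mem_decomposition C h A hA σ hσ (hone σ hσζ)
  apply splitsGlobally_of_trivial h3 C h
  intro σ hσ
  have hσζ : σ ζ = ζ := (cycloExp_cast_eq_one_iff σ ζ hζ).1 hσ
  rw [← hzero σ hσ]
  have h1 : σ α = α := by
    have := (mem_fixingSubgroup_adjoin_iff ζ σ).2 hσζ
    exact this ⟨α, hmem⟩
  have h2 := hα σ hσζ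
  rw [h1] at h2
  have h3' : ζ ^ (κ σ).val = 1 := by
    have : (ζ ^ (κ σ).val - 1) * α = 0 := by rw [sub_mul, ← h2]; ring
    rcases mul_eq_zero.1 this with h | h
    · exact sub_eq_zero.1 h
    · exact absurd h hα0
  have h4 : p ∣ (κ σ).val := (hζ.pow_eq_one_iff_dvd _).1 h3'
  have h5 : (κ σ).val = 0 := Nat.eq_zero_of_dvd_of_lt h4 (ZMod.val_lt _)
  exact (ZMod.val_eq_zero _).1 h5

end Fermat.Agent.S14.G
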